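import Fermat.Agent.CarmichaelOrder.PrimeSums

/-!
# The normal order of `log (n / λ n)`

By Turán's inequality `∑_{p ∣ n} G p` is near its mean, the prime powers up to the cut add
`O (log log n)` on average, and those above it seldom divide two of the `p - 1`.
-/

set_option autoImplicit false

noncomputable section

namespace FA.CarmichaelOrder

open Finset Filter
open FA.ErdosKac (primesUpTo mem_primesUpTo recipSum loglog tendsto_loglog)
open scoped Topology ArithmeticFunction.vonMangoldt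

/-- `log (n / λ n)`. -/
def logDefect (n : ℕ) : ℝ := Real.log n - Real.log (ArithmeticFunction.carmichael n)

/-- **Turán's inequality for nonnegative weights.** -/
theorem sum_sq_dev_le {G : ℕ → ℝ} {N : ℕ} (hG : ∀ p, 0 ≤ G p) :
    ∑ n ∈ Icc 1 N, ((∑ p ∈ n.primeFactors, G p) - ∑ p ∈ primesUpTo N, G p / p) ^ 2 ≤
      N * ∑ p ∈ primesUpTo N, G p ^ 2 / p +
        2 * (∑ p ∈ primesUpTo N, G p / p) * ∑ p ∈ primesUpTo N, G p := by
  obtain ⟨μ, hμ⟩ : ∃ μ, μ = ∑ p ∈ primesUpTo N, G p / p := ⟨_, rfl⟩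
  rw [← hμ]
  have hμ0 : 0 ≤ μ := hμ ▸ sum_nonneg fun p _ => div_nonneg (hG p) (Nat.cast_nonneg p)
  have hcnt : ∀ d : ℕ, (∑ n ∈ Icc 1 N, if d ∣ n then (1 : ℝ) else 0) = ((N / d : ℕ) : ℝ) :=
    fun d => by rw [sum_boole, show Icc 1 N = Ioc 0 N from rfl, Nat.Ioc_filter_dvd_card_eq_div]
  have hf : ∀ n ∈ Icc 1 N, ∑ p ∈ n.primeFactors, G p =
      ∑ p ∈ primesUpTo N, G p * if p ∣ n then (1 : ℝ) else 0 := fun n hn => by
    rw [OmegaPhi.primeFactors_eq_filter (mem_Icc.1 hn).1 (mem_Icc.1 hn).2, sum_filter]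
    exact sum_congr rfl fun p _ => by split_ifs <;> simp
  obtain ⟨f, hfdef⟩ : ∃ f : ℕ → ℝ, f = fun n => ∑ p ∈ n.primeFactors, G p := ⟨_, rfl⟩
  have hlow : N * μ - ∑ p ∈ primesUpTo N, G p ≤ ∑ n ∈ Icc 1 N, f n := by
    rw [hfdef, sum_congr rfl hf, sum_comm, hμ, mul_sum, ← sum_sub_distrib]
    refine sum_le_sum fun p hp => ?_
    rw [← mul_sum, hcnt, show (N : ℝ) * (G p / p) - G p = G p * ((N : ℝ) / p - 1) by ring]
    refine mul_le_mul_of_nonneg_left ?_ (hG p)
    rw [← Nat.floor_div_eq_div (K := ℝ)]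
    linarith [Nat.lt_floor_add_one ((N : ℝ) / p)]
  have hup : ∑ n ∈ Icc 1 N, f n ^ 2 ≤ N * (∑ p ∈ primesUpTo N, G p ^ 2 / p + μ ^ 2) := by
    refine le_trans (le_of_eq (sum_congr rfl fun n hn => show f n ^ 2 =
      ∑ p ∈ primesUpTo N, ∑ q ∈ primesUpTo N,
        G p * G q * if p ∣ n ∧ q ∣ n then (1 : ℝ) else 0 by
      rw [hfdef]
      simp only [hf n hn, sq, sum_mul_sum]
      refine sum_congr rfl fun p _ => sum_congr rfl fun q _ => ?_
      rw [ite_and]
      split_ifs <;> ring)) ?_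
    rw [sum_comm]
    simp only [sum_comm (s := Icc 1 N), ← mul_sum]
    refine (sum_le_sum fun p hp => sum_le_sum (g := fun q =>
      G p * G q * ((N : ℝ) * ((p : ℝ)⁻¹ * (q : ℝ)⁻¹)) +
        if q = p then (N : ℝ) * (G p ^ 2 / p) else 0) fun q hq => ?_).trans (le_of_eq ?_)
    · obtain ⟨hpp, -⟩ := mem_primesUpTo.1 hp
      obtain ⟨hqp, -⟩ := mem_primesUpTo.1 hq
      have hnn : 0 ≤ G p * G q * ((N : ℝ) * ((p : ℝ)⁻¹ * (q : ℝ)⁻¹)) :=
        mul_nonneg (mul_nonneg (hG p) (hG q)) (by positivity)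
      by_cases he : q = p
      · subst he
        rw [if_pos rfl]
        simp only [and_self]
        rw [hcnt]
        have := mul_le_mul_of_nonneg_left (Nat.cast_div_le (α := ℝ) (m := N) (n := q))
          (mul_nonneg (hG q) (hG q))
        rw [show G q * G q * ((N : ℝ) / q) = N * (G q ^ 2 / q) by ring] at this
        linarith
      · rw [if_neg he, add_zero]
        refine mul_le_mul_of_nonneg_left ?_ (mul_nonneg (hG p) (hG q))
        rw [sum_congr rfl fun n _ => if_congr (show p ∣ n ∧ q ∣ n ↔ p * q ∣ n from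
          ⟨fun h => Nat.Coprime.mul_dvd_of_dvd_of_dvd
            ((Nat.coprime_primes hpp hqp).2 (Ne.symm he)) h.1 h.2,
          fun h => ⟨dvd_of_mul_right_dvd h, dvd_of_mul_left_dvd h⟩⟩) rfl rfl, hcnt]
        refine Nat.cast_div_le.trans (le_of_eq ?_)
        rw [Nat.cast_mul, div_eq_mul_inv, mul_inv]
    · rw [mul_add, hμ, sq, sum_mul_sum, mul_sum, mul_sum, add_comm, ← sum_add_distrib]
      refine sum_congr rfl fun p hp => ?_
      rw [sum_add_distrib, sum_ite_eq' _ p, if_pos hp, mul_sum]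
      refine congrArg₂ _ (sum_congr rfl fun q _ => ?_) rfl
      ring
  rw [show ∑ n ∈ Icc 1 N, ((∑ p ∈ n.primeFactors, G p) - μ) ^ 2 =
    (∑ n ∈ Icc 1 N, f n ^ 2) - 2 * μ * (∑ n ∈ Icc 1 N, f n) + N * μ ^ 2 by
      rw [hfdef, mul_sum, ← sum_sub_distrib, show (N : ℝ) * μ ^ 2 = ∑ n ∈ Icc 1 N, μ ^ 2 by
        rw [sum_const, Nat.card_Icc, Nat.add_sub_cancel, nsmul_eq_mul], ← sum_add_distrib]
      exact sum_congr rfl fun n _ => by ring]
  have := mul_le_mul_of_nonneg_left hlow (show 0 ≤ 2 * μ by linarith)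
  linarith

/-- The averages of the hit counts. -/
theorem sum_hitCount_le (N d : ℕ) :
    ∑ n ∈ Icc 1 N, hitCount n d ≤ N * classRecip N d ∧
    ∑ n ∈ Icc 1 N, (hitCount n d ^ 2 - hitCount n d) ≤ N * classRecip N d ^ 2 := by
  obtain ⟨A, hA⟩ : ∃ A, A = (primesUpTo N).filter fun p => d ∣ p - 1 := ⟨_, rfl⟩
  have e : ∀ n ∈ Icc 1 N, hitCount n d = ((A.filter (· ∣ n)).card : ℝ) := fun n hn => by
    rw [hitCount, OmegaPhi.primeFactors_eq_filter (mem_Icc.1 hn).1 (mem_Icc.1 hn).2, hA,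
      filter_comm]
  rw [classRecip, ← hA]
  refine ⟨?_, ?_⟩
  · rw [sum_congr rfl e]
    refine le_trans (le_of_eq (sum_congr rfl fun n _ => ?_))
      ((OmegaPhi.sum_filter_dvd_le (P := A) (h := fun _ => (1 : ℝ)) fun _ _ => zero_le_one).trans
        (le_of_eq (by simp only [one_div])))
    rw [sum_const, nsmul_one]
  · rw [sum_congr rfl fun n hn => by rw [e n hn]]
    exact OmegaPhi.sum_sq_sub_le A (fun p hp => (mem_primesUpTo.1 (mem_filter.1 (hA ▸ hp)).1).1) N

/-- The repeated prime factors cost `O (1)` on average. -/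
theorem exists_repeated_le : ∃ C : ℝ, 0 ≤ C ∧ ∀ N : ℕ, 1 ≤ N →
    ∑ n ∈ Icc 1 N, (Real.log n - ∑ p ∈ n.primeFactors, Real.log p) ≤ C * N := by
  obtain ⟨C, hC⟩ := ErdosKac.exists_abs_sum_log_div_sub_le
  have hC0 : 0 ≤ C := (abs_nonneg _).trans (hC 1 le_rfl)
  refine ⟨C + 2, by positivity, fun N hN => ?_⟩
  rw [sum_sub_distrib]
  have h1 : ∑ n ∈ Icc 1 N, Real.log n ≤ N * Real.log N := by
    refine (sum_le_card_nsmul _ _ (Real.log N) fun n hn => Real.log_le_log
      (Nat.cast_pos.2 (mem_Icc.1 hn).1) (Nat.cast_le.2 (mem_Icc.1 hn).2)).trans (le_of_eq ?_)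
    rw [Nat.card_Icc, Nat.add_sub_cancel, nsmul_eq_mul]
  have h2 : N * (∑ p ∈ primesUpTo N, Real.log p / p) - ∑ p ∈ primesUpTo N, Real.log p ≤
      ∑ n ∈ Icc 1 N, ∑ p ∈ n.primeFactors, Real.log p := by
    have e2 : ∀ n ∈ Icc 1 N, ∑ p ∈ n.primeFactors, Real.log p =
        ∑ p ∈ primesUpTo N, if p ∣ n then Real.log p else 0 := fun n hn => by
      rw [OmegaPhi.primeFactors_eq_filter (mem_Icc.1 hn).1 (mem_Icc.1 hn).2, sum_filter]
    rw [sum_congr rfl e2, sum_comm, mul_sum, ← sum_sub_distrib]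
    refine sum_le_sum fun p hp => ?_
    rw [← sum_filter, sum_const, nsmul_eq_mul, show Icc 1 N = Ioc 0 N from rfl,
      Nat.Ioc_filter_dvd_card_eq_div,
      show (N : ℝ) * (Real.log p / p) - Real.log p = ((N : ℝ) / p - 1) * Real.log p by ring]
    refine mul_le_mul_of_nonneg_right ?_ (Real.log_natCast_nonneg p)
    rw [← Nat.floor_div_eq_div (K := ℝ)]
    linarith [Nat.lt_floor_add_one ((N : ℝ) / p)]
  have h3 := mul_le_mul_of_nonneg_left (abs_le.1 (hC N hN)).1 (Nat.cast_nonneg (α := ℝ) N)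
  linarith [sum_log_primes_le N]

/-- **The mean deviation of `log (n / λ n)`.** -/
theorem exists_mean_defect : ∃ C : ℝ, 0 ≤ C ∧ ∀ᶠ N : ℕ in atTop,
    ∑ n ∈ Icc 1 N, |logDefect n - loglog N * Real.log (loglog N)| ≤
      C * N * (loglog N * (Real.sqrt (Real.log (loglog N)) *
        Real.sqrt (Real.sqrt (Real.log (loglog N))))) := by
  obtain ⟨CS, hCS, hshare⟩ := exists_log_sums
  obtain ⟨CR, hCR, hclass⟩ := exists_classRecip_le
  obtain ⟨CM, hCM, hmean⟩ := exists_mean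
  obtain ⟨CP, hCP, hrep⟩ := exists_repeated_le
  refine ⟨(CM + 2 * (1 + CM) * CM + 1) + CM + CP + CR * CS + 24 * CR ^ 2 + 24 * CR ^ 2 + 8 + 6,
    by positivity, ?_⟩
  filter_upwards [hclass, hmean, tendsto_loglog.eventually_ge_atTop 4,
    tendsto_loglogLog.eventually_ge_atTop 4, eventually_ge_atTop 16]
    with N hclass hmean hx hl hN
  obtain ⟨hy2, hμle, hV, hG1, hθ⟩ := hmean
  obtain ⟨x, hxdef⟩ : ∃ x, x = loglog N := ⟨_, rfl⟩
  obtain ⟨l, hldef⟩ : ∃ l, l = Real.log x := ⟨_, rfl⟩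
  obtain ⟨r, hr⟩ : ∃ r, r = Real.sqrt l := ⟨_, rfl⟩
  obtain ⟨s, hs⟩ : ∃ s, s = Real.sqrt r := ⟨_, rfl⟩
  obtain ⟨y, hy⟩ : ∃ y, y = smallCut N := ⟨_, rfl⟩
  obtain ⟨L, hL⟩ : ∃ L, L = Real.log N := ⟨_, rfl⟩
  rw [← hxdef] at hx hl hμle hV hG1 hθ hclass ⊢
  rw [← hldef] at hl hμle hV hG1 hθ ⊢
  rw [← hy] at hy2 hμle hV hG1 hθ
  rw [← hr] at hμle hV hG1 hθ ⊢
  rw [← hs]
  rw [← hL] at hclass
  have hxL : x ≤ L := hxdef ▸ hL ▸ OmegaPhi.loglog_le_log N (by omega)
  have hrl : r * r = l := hr ▸ Real.mul_self_sqrt (by linarith)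
  have hr2 : 2 ≤ r := by
    rw [hr, Real.le_sqrt' two_pos]
    norm_num
    linarith
  have hs1 : 1 ≤ s := hs ▸ Real.one_le_sqrt.2 (by linarith)
  have hsr : s * s = r := hs ▸ Real.mul_self_sqrt (by linarith)
  have hrle : r ≤ l := by
    have := mul_le_mul_of_nonneg_right hr2 (show 0 ≤ r by linarith)
    linarith
  have hlx : l ≤ x := hldef ▸ Real.log_le_self (by linarith)
  obtain ⟨W, hW⟩ : ∃ W, W = (N : ℝ) * (x * (r * s)) := ⟨_, rfl⟩
  have hN0 : (0 : ℝ) < N := Nat.cast_pos.2 (by omega)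
  have hrs : r ≤ r * s := le_mul_of_one_le_right (by linarith) hs1
  have hxrs : x * r ≤ x * (r * s) := mul_le_mul_of_nonneg_left hrs (by linarith)
  have hNW : (N : ℝ) * (x * r) ≤ W := hW ▸ mul_le_mul_of_nonneg_left hxrs hN0.le
  have hxr1 : x ≤ x * r := le_mul_of_one_le_right (by linarith) (by linarith)
  have hNx : (N : ℝ) * x ≤ W := (mul_le_mul_of_nonneg_left hxr1 hN0.le).trans hNW
  have hN1 : (N : ℝ) ≤ W := (le_mul_of_one_le_right hN0.le (by linarith)).trans hNx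
  obtain ⟨μ, hμ⟩ : ∃ μ, μ = ∑ p ∈ primesUpTo N, smallLog y p / p := ⟨_, rfl⟩
  rw [← hμ] at hμle
  obtain ⟨V, hVdef⟩ : ∃ V, V = ∑ p ∈ primesUpTo N, smallLog y p ^ 2 / p := ⟨_, rfl⟩
  rw [← hVdef] at hV
  -- pointwise
  refine (sum_le_sum (g := fun n : ℕ =>
    |(∑ p ∈ n.primeFactors, smallLog y p) - μ| + (|μ - x * l| + 2 * (x * r) + Real.log 2) +
      (∑ p ∈ n.primeFactors, 2 * (p : ℝ)⁻¹) + (Real.log n - ∑ p ∈ n.primeFactors, Real.log p) +
      (∑ d ∈ (Icc 1 y).filter (fun d => ¬ d.Prime), Λ d * hitCount n d) +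
      ∑ d ∈ Ioc y N, Λ d * (hitCount n d ^ 2 - hitCount n d)) fun n hn => ?_).trans ?_
  · obtain ⟨hn1, hn2⟩ := mem_Icc.1 hn
    have hn0 : n ≠ 0 := by omega
    obtain ⟨h1, h2⟩ := log_totient_sub_log_carmichael hn0 hn2 y
    obtain ⟨h3, h4⟩ := log_sub_log_totient hn0
    have h5 : 0 ≤ Real.log n - ∑ p ∈ n.primeFactors, Real.log p := by
      rw [← sum_repeated_eq]
      exact sum_nonneg fun p _ => Real.log_natCast_nonneg _
    have h6 : 0 ≤ ∑ d ∈ (Icc 1 y).filter (fun d => ¬ d.Prime), Λ d * hitCount n d :=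
      sum_nonneg fun d _ => mul_nonneg ArithmeticFunction.vonMangoldt_nonneg (hitCount_nonneg n d)
    have h7 : 0 ≤ ∑ d ∈ Ioc y N, Λ d * (hitCount n d ^ 2 - hitCount n d) :=
      sum_nonneg fun d _ => mul_nonneg ArithmeticFunction.vonMangoldt_nonneg (by
        rw [hitCount, sub_nonneg]
        exact_mod_cast Nat.le_self_pow two_ne_zero _)
    have h8 : 0 ≤ ∑ p ∈ n.primeFactors, 2 * (p : ℝ)⁻¹ := sum_nonneg fun p _ => by positivity
    have h9 : 0 ≤ Real.log 2 := (Real.log_pos one_lt_two).le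
    obtain ⟨c, hc⟩ : ∃ c, c = (∑ p ∈ n.primeFactors, smallLog y p) - μ := ⟨_, rfl⟩
    rw [logDefect, ← hc, abs_le]
    constructor <;>
      linarith [le_abs_self c, neg_abs_le c, le_abs_self (μ - x * l), neg_abs_le (μ - x * l)]
  rw [sum_add_distrib, sum_add_distrib, sum_add_distrib, sum_add_distrib, sum_add_distrib,
    sum_const, Nat.card_Icc, Nat.add_sub_cancel, nsmul_eq_mul]
  -- Turán
  have hT : ∑ n ∈ Icc 1 N, |(∑ p ∈ n.primeFactors, smallLog y p) - μ| ≤
      (CM + 2 * (1 + CM) * CM + 1) * W := by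
    have hsq := sum_sq_dev_le (N := N) (smallLog_nonneg y)
    rw [← hμ, ← hVdef] at hsq
    obtain ⟨a, ha⟩ : ∃ a, a = x * (r * s) := ⟨_, rfl⟩
    have ha0 : 0 < a := ha ▸ by positivity
    refine (sum_le_sum (g := fun n => ((∑ p ∈ n.primeFactors, smallLog y p) - μ) ^ 2 / a + a)
      fun n _ => ?_).trans ?_
    · obtain ⟨c, hc⟩ : ∃ c, c = (∑ p ∈ n.primeFactors, smallLog y p) - μ := ⟨_, rfl⟩
      rw [← hc, ← sq_abs, div_add' _ _ _ ha0.ne', le_div_iff₀ ha0]
      nlinarith [sq_nonneg (|c| - a), mul_nonneg (abs_nonneg c) ha0.le]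
    · rw [sum_add_distrib, sum_const, Nat.card_Icc, Nat.add_sub_cancel, nsmul_eq_mul, ← sum_div,
        add_mul _ (1 : ℝ) W, one_mul]
      refine add_le_add ?_ (le_of_eq (by rw [hW, ha]))
      rw [div_le_iff₀ ha0]
      refine hsq.trans ?_
      have hμ2 : μ ≤ (1 + CM) * (x * l) := by
        have := mul_le_mul_of_nonneg_left
          (mul_le_mul_of_nonneg_left hrle (show 0 ≤ x by linarith)) hCM
        linarith [(abs_le.1 hμle).2]
      have hG0 : 0 ≤ ∑ p ∈ primesUpTo N, smallLog y p := sum_nonneg fun p _ => smallLog_nonneg y p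
      have h1 : 2 * μ * (∑ p ∈ primesUpTo N, smallLog y p) ≤
          2 * ((1 + CM) * (x * l)) * (CM * N * r) :=
        mul_le_mul (by linarith) hG1 hG0 (by positivity)
      have h2 := mul_le_mul_of_nonneg_left hV hN0.le
      have h3 : 2 * ((1 + CM) * (x * l)) * (CM * (N : ℝ) * r) ≤
          2 * (1 + CM) * CM * ((N : ℝ) * (x ^ 2 * (r * l))) := by
        rw [show 2 * ((1 + CM) * (x * l)) * (CM * (N : ℝ) * r) =
          2 * (1 + CM) * CM * ((N : ℝ) * (x * (r * l))) by ring]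
        refine mul_le_mul_of_nonneg_left (mul_le_mul_of_nonneg_left (mul_le_mul_of_nonneg_right
          (le_self_pow₀ (by linarith) two_ne_zero) ?_) hN0.le) (by positivity)
        exact mul_nonneg (by linarith) (by linarith)
      have h4 : (N : ℝ) * (x ^ 2 * (r * l)) = W * a := by
        rw [hW, ha]
        linear_combination (-(N : ℝ) * x ^ 2 * r ^ 2) * hsr - (N : ℝ) * x ^ 2 * r * hrl
      rw [h4] at h3
      rw [show (N : ℝ) * (CM * (x ^ 2 * (r * l))) = CM * (W * a) by rw [← h4]; ring] at h2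
      linarith
  have h2p : ∑ n ∈ Icc 1 N, ∑ p ∈ n.primeFactors, 2 * (p : ℝ)⁻¹ ≤ 2 * W := by
    refine (OmegaPhi.sum_primeFactors_le (h := fun p : ℕ => 2 * (p : ℝ)⁻¹)
      fun p => by positivity).trans ?_
    refine le_trans (mul_le_mul_of_nonneg_left
      (show ∑ p ∈ primesUpTo N, 2 * (p : ℝ)⁻¹ / p ≤ 2 from ?_) hN0.le) (by linarith)
    rw [sum_congr rfl fun (p : ℕ) _ => show 2 * (p : ℝ)⁻¹ / p = 2 * ((p : ℝ)⁻¹) ^ 2 by ring,
      ← mul_sum]
    have := FA.ErdosKac.sum_inv_sq_le (primesUpTo N) fun p hp => (mem_primesUpTo.1 hp).1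
    linarith
  have hR : ∀ d : ℕ, IsPrimePow d → (d : ℝ) ≤ L ^ 3 → classRecip N d ≤ 2 * CR * x / d :=
    fun d hd hdL => by
      refine (hclass d hd.two_le hdL).trans ?_
      rw [div_eq_mul_inv, div_eq_mul_inv]
      exact (mul_le_mul_of_nonneg_left (mul_le_mul_of_nonneg_left
        (inv_totient_le_of_isPrimePow hd) (show 0 ≤ x by linarith)) hCR).trans (le_of_eq (by ring))
  have hyx : (y : ℝ) ≤ x * r := by
    rw [hy, smallCut, ← hxdef, ← hldef, ← hr]
    exact Nat.floor_le (mul_nonneg (by linarith) (by linarith))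
  have hyx' : x * r < (y : ℝ) + 1 := by
    rw [hy, smallCut, ← hxdef, ← hldef, ← hr]
    exact Nat.lt_floor_add_one _
  have hyL : ∀ d : ℕ, d ≤ y → (d : ℝ) ≤ L ^ 3 := fun d hd => by
    refine ((Nat.cast_le.2 hd).trans hyx).trans ?_
    refine (mul_le_mul hxL (hrle.trans (hlx.trans hxL)) (by linarith) (by linarith)).trans ?_
    rw [← sq]
    exact pow_le_pow_right₀ (by linarith) (by norm_num)
  -- the small prime powers
  have hS : ∑ n ∈ Icc 1 N, ∑ d ∈ (Icc 1 y).filter (fun d => ¬ d.Prime), Λ d * hitCount n d ≤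
      CR * CS * W := by
    rw [sum_comm]
    refine (sum_le_sum (g := fun d => (N : ℝ) * (CR * x * (Λ d * ((d.totient : ℕ) : ℝ)⁻¹)))
      fun d hd => ?_).trans ?_
    · rw [← mul_sum]
      by_cases hp : IsPrimePow d
      swap
      · simp [ArithmeticFunction.vonMangoldt_eq_zero_iff.2 hp]
      refine (mul_le_mul_of_nonneg_left ((sum_hitCount_le N d).1.trans (mul_le_mul_of_nonneg_left
        (hclass d hp.two_le (hyL d (mem_Icc.1 (mem_filter.1 hd).1).2)) hN0.le))
        ArithmeticFunction.vonMangoldt_nonneg).trans (le_of_eq ?_)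
      ring
    · rw [← mul_sum, ← mul_sum]
      refine le_trans (mul_le_mul_of_nonneg_left
        (mul_le_mul_of_nonneg_left (hshare y hy2).2 (by positivity)) hN0.le) ?_
      have := mul_le_mul_of_nonneg_left hNx (mul_nonneg hCR hCS)
      linarith
  -- the large ones
  have hQ : ∑ n ∈ Icc 1 N, ∑ d ∈ Ioc y N, Λ d * (hitCount n d ^ 2 - hitCount n d) ≤
      (24 * CR ^ 2 + 24 * CR ^ 2 + 8) * W := by
    rw [sum_comm]
    obtain ⟨g, hg⟩ : ∃ g : ℕ → ℝ, g = fun d => Λ d * classRecip N d ^ 2 := ⟨_, rfl⟩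
    refine (sum_le_sum (g := fun d => (N : ℝ) * g d) fun d _ => ?_).trans ?_
    · rw [← mul_sum, hg]
      exact (mul_le_mul_of_nonneg_left (sum_hitCount_le N d).2
        ArithmeticFunction.vonMangoldt_nonneg).trans (le_of_eq (by ring))
    rw [← mul_sum]
    have hgen : ∀ (P : ℕ → Prop) [DecidablePred P] (c : ℝ) (z : ℕ), 0 ≤ c →
        (∀ d ∈ Ioc y N, P d → z < d) → (∀ d ∈ Ioc y N, P d → g d ≤ c * (((d : ℝ)) ^ 2)⁻¹) →
        ∑ d ∈ (Ioc y N).filter P, g d ≤ c * (2 / ((z : ℝ) + 1)) := by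
      intro P _ c z hc hz hle
      refine (sum_le_sum fun d hd => hle d (mem_filter.1 hd).1 (mem_filter.1 hd).2).trans ?_
      rw [← mul_sum]
      refine mul_le_mul_of_nonneg_left ((sum_le_sum_of_subset_of_nonneg (t := Ioo z (N + 1))
        (fun d hd => ?_) fun _ _ _ => by positivity).trans (sum_Ioo_inv_sq_le z (N + 1))) hc
      obtain ⟨hd1, hd2⟩ := mem_filter.1 hd
      exact mem_Ioo.2 ⟨hz d hd1 hd2, Nat.lt_succ_of_le (mem_Ioc.1 hd1).2⟩
    have hval : ∀ (c : ℝ) (d : ℕ), 0 ≤ c → d ∈ Ioc y N → (d : ℝ) ≤ L ^ 3 → Real.log d ≤ c →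
        g d ≤ c * (2 * CR * x) ^ 2 * (((d : ℝ)) ^ 2)⁻¹ := fun c d hc hd hdL hdc => by
      rw [hg]
      simp only
      by_cases hp : IsPrimePow d
      swap
      · rw [ArithmeticFunction.vonMangoldt_eq_zero_iff.2 hp, zero_mul]
        positivity
      refine (mul_le_mul (ArithmeticFunction.vonMangoldt_le_log.trans hdc)
        (pow_le_pow_left₀ (classRecip_nonneg N d) (hR d hp hdL) 2) (sq_nonneg _) hc).trans
        (le_of_eq ?_)
      ring
    have hlog3 : Real.log (L ^ 3) = 3 * x := by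
      rw [Real.log_pow, hxdef, loglog, hL]
      norm_num
    have h1 : ∑ d ∈ (Ioc y N).filter (fun d : ℕ => (d : ℝ) ≤ x ^ 3), g d ≤
        3 * l * (2 * CR * x) ^ 2 * (2 / ((y : ℝ) + 1)) := by
      refine hgen (fun d => (d : ℝ) ≤ x ^ 3) _ y (by positivity) (fun d hd _ => (mem_Ioc.1 hd).1)
        fun d hd hdx => ?_
      have hd0 : 0 < d := lt_of_le_of_lt (Nat.zero_le y) (mem_Ioc.1 hd).1
      refine hval _ d (by linarith) hd (hdx.trans (pow_le_pow_left₀ (by linarith) hxL 3)) ?_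
      refine (Real.log_le_log (Nat.cast_pos.2 hd0) hdx).trans (le_of_eq ?_)
      rw [Real.log_pow, hldef]
      norm_num
    have h2 : ∑ d ∈ (Ioc y N).filter (fun d : ℕ => x ^ 3 < (d : ℝ) ∧ (d : ℝ) ≤ L ^ 3), g d ≤
        3 * x * (2 * CR * x) ^ 2 * (2 / x ^ 3) := by
      refine (hgen (fun d => x ^ 3 < (d : ℝ) ∧ (d : ℝ) ≤ L ^ 3) _ ⌊x ^ 3⌋₊
        (show (0 : ℝ) ≤ 3 * x * (2 * CR * x) ^ 2 by positivity)
        (fun d _ h => (Nat.floor_lt (by positivity)).2 h.1) fun d hd h => ?_).trans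
        (mul_le_mul_of_nonneg_left (div_le_div_of_nonneg_left zero_le_two (by positivity)
          (Nat.lt_floor_add_one _).le) (by positivity))
      have hd0 : 0 < d := lt_of_le_of_lt (Nat.zero_le y) (mem_Ioc.1 hd).1
      exact hval _ d (by linarith) hd h.2
        ((Real.log_le_log (Nat.cast_pos.2 hd0) h.2).trans hlog3.le)
    have h3 : ∑ d ∈ (Ioc y N).filter (fun d : ℕ => L ^ 3 < (d : ℝ)), g d ≤
        4 * L ^ 3 * (2 / L ^ 3) := by
      have hL0 : 0 < L := by linarith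
      refine (hgen (fun d => L ^ 3 < (d : ℝ)) _ ⌊L ^ 3⌋₊
        (show (0 : ℝ) ≤ 4 * L ^ 3 by positivity) (fun d _ h => (Nat.floor_lt (by positivity)).2 h)
        fun d hd _ => ?_).trans (mul_le_mul_of_nonneg_left (div_le_div_of_nonneg_left zero_le_two
          (by positivity) (Nat.lt_floor_add_one _).le) (by positivity))
      rw [hg]
      simp only
      have hd0 : 0 < d := lt_of_le_of_lt (Nat.zero_le y) (mem_Ioc.1 hd).1
      refine (mul_le_mul (ArithmeticFunction.vonMangoldt_le_log.trans ((Real.log_le_log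
        (Nat.cast_pos.2 hd0) (Nat.cast_le.2 (mem_Ioc.1 hd).2)).trans hL.ge))
        (pow_le_pow_left₀ (classRecip_nonneg N d) ((OmegaPhi.recip_class_le hd0 N).trans
          (div_le_div_of_nonneg_right (show 1 + Real.log (N : ℝ) ≤ 2 * L by linarith)
            (Nat.cast_nonneg d))) 2) (sq_nonneg _) hL0.le).trans (le_of_eq ?_)
      ring
    have hall : ∑ d ∈ Ioc y N, g d ≤ 3 * l * (2 * CR * x) ^ 2 * (2 / ((y : ℝ) + 1)) +
        3 * x * (2 * CR * x) ^ 2 * (2 / x ^ 3) + 4 * L ^ 3 * (2 / L ^ 3) := by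
      refine le_trans ?_ (add_le_add (add_le_add h1 h2) h3)
      rw [sum_filter, sum_filter, sum_filter, ← sum_add_distrib, ← sum_add_distrib]
      refine sum_le_sum fun d _ => ?_
      have h0 : 0 ≤ g d := by
        rw [hg]
        exact mul_nonneg ArithmeticFunction.vonMangoldt_nonneg (sq_nonneg _)
      split_ifs with ha hb hc hd he <;> grind
    refine (mul_le_mul_of_nonneg_left hall hN0.le).trans ?_
    have hx3 : 3 * x * (2 * CR * x) ^ 2 * (2 / x ^ 3) = 24 * CR ^ 2 := by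
      field_simp
      ring
    have hL3 : 4 * L ^ 3 * (2 / L ^ 3) = 8 := by
      have : L ≠ 0 := by linarith
      field_simp
      ring
    have hy1 : 3 * l * (2 * CR * x) ^ 2 * (2 / ((y : ℝ) + 1)) ≤ 24 * CR ^ 2 * (x * r) := by
      refine (mul_le_mul_of_nonneg_left (div_le_div_of_nonneg_left zero_le_two (by positivity)
        hyx'.le) (by positivity)).trans (le_of_eq ?_)
      rw [← hrl]
      field_simp
      ring
    rw [hx3, hL3]
    have e1 := mul_le_mul_of_nonneg_left hy1 hN0.le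
    have e2 := mul_le_mul_of_nonneg_left hNW (show 0 ≤ 24 * CR ^ 2 by positivity)
    have e3 := mul_le_mul_of_nonneg_left hN1 (show 0 ≤ 24 * CR ^ 2 by positivity)
    linarith
  have hPr : ∑ n ∈ Icc 1 N, (Real.log n - ∑ p ∈ n.primeFactors, Real.log p) ≤ CP * W :=
    (hrep N (by omega)).trans (mul_le_mul_of_nonneg_left hN1 hCP)
  have hconst : (N : ℝ) * (|μ - x * l| + 2 * (x * r) + Real.log 2) ≤ (CM + 3) * W := by
    have h1 := mul_le_mul_of_nonneg_left hμle hN0.le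
    have h2 := mul_le_mul_of_nonneg_left hNW hCM
    have h3 := mul_le_mul_of_nonneg_left (show Real.log 2 ≤ 1 by linarith [Real.log_two_lt_d9])
      hN0.le
    linarith
  rw [mul_assoc, ← hW]
  have hW0 : 0 ≤ W := le_trans hN0.le hN1
  linarith

/-- `log log n · log log log n` against the value at `N` for `√N < n ≤ N`. -/
theorem abs_order_sub_le {N n : ℕ} (hn : n ≤ N) (hs : Nat.sqrt N < n) (h2 : 2 ≤ n)
    (hx : 4 ≤ loglog N) :
    loglog N - 1 ≤ loglog n ∧ loglog n ≤ loglog N ∧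
      Real.log (loglog N) - 1 ≤ Real.log (loglog n) ∧ Real.log (loglog n) ≤ Real.log (loglog N) ∧
      |loglog n * Real.log (loglog n) - loglog N * Real.log (loglog N)| ≤ 2 * loglog N := by
  obtain ⟨h1, h3⟩ := ShiftedPrimeOmega.abs_loglog_sub_le hn hs h2
  have h4 := Real.log_le_log (show 0 < loglog n by linarith) h3
  have h5 := Real.log_le_log (show 0 < loglog N by linarith)
    (show loglog N ≤ 2 * loglog n by linarith)
  rw [Real.log_mul two_ne_zero (by linarith)] at h5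
  have hl : 1 ≤ Real.log (loglog N) := by
    rw [Real.le_log_iff_exp_le (by linarith)]
    linarith [Real.exp_one_lt_d9]
  have h6 : Real.log (loglog N) ≤ loglog N := Real.log_le_self (by linarith)
  have h7 : Real.log (loglog N) - 1 ≤ Real.log (loglog n) := by linarith [Real.log_two_lt_d9]
  have h8 := mul_le_mul h3 h4 (by linarith) (show 0 ≤ loglog N by linarith)
  have h9 := mul_le_mul h1 h7 (by linarith) (show 0 ≤ loglog n by linarith)
  refine ⟨h1, h3, h7, h4, ?_⟩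
  rw [abs_le]
  constructor <;> linarith

theorem tendsto_sqrt_div :
    Tendsto (fun N : ℕ => ((Nat.sqrt N + 1 : ℕ) : ℝ) / N) atTop (𝓝 0) := by
  refine squeeze_zero' (Eventually.of_forall fun N => by positivity) ?_
    ((tendsto_const_nhds (x := (2 : ℝ))).div_atTop
      (Real.tendsto_sqrt_atTop.comp tendsto_natCast_atTop_atTop))
  filter_upwards [eventually_ge_atTop 1] with N hN
  simp only [Function.comp_apply]
  have hN0 : (0 : ℝ) < N := Nat.cast_pos.2 hN
  have h1 : (1 : ℝ) ≤ Real.sqrt N := Real.one_le_sqrt.2 (Nat.one_le_cast.2 hN)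
  have h2 := mul_le_mul_of_nonneg_right (show ((Nat.sqrt N + 1 : ℕ) : ℝ) ≤ 2 * Real.sqrt N by
    push_cast
    linarith [Real.nat_sqrt_le_real_sqrt (a := N)]) (Real.sqrt_nonneg (N : ℝ))
  rw [mul_assoc, Real.mul_self_sqrt hN0.le] at h2
  rwa [div_le_div_iff₀ hN0 (by linarith)]

/-- **The normal order of `log (n / λ n)`.** -/
theorem tendsto_abnormal_defect {ε : ℝ} (hε : 0 < ε) :
    Tendsto (fun N : ℕ => (((Icc 1 N).filter fun n =>
      ε * (loglog n * Real.log (loglog n)) <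
        |logDefect n - loglog n * Real.log (loglog n)|).card : ℝ) / N) atTop (𝓝 0) := by
  obtain ⟨C, hC, hmean⟩ := exists_mean_defect
  have hlim : Tendsto (fun N : ℕ => ((Nat.sqrt N + 1 : ℕ) : ℝ) / N +
      4 * C / ε / Real.sqrt (Real.sqrt (Real.log (loglog N)))) atTop (𝓝 0) := by
    have h1 : Tendsto (fun N : ℕ => Real.sqrt (Real.sqrt (Real.log (loglog N)))) atTop atTop :=
      Real.tendsto_sqrt_atTop.comp (Real.tendsto_sqrt_atTop.comp tendsto_loglogLog)
    simpa using tendsto_sqrt_div.add ((tendsto_const_nhds (x := 4 * C / ε)).div_atTop h1)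
  refine squeeze_zero' (Eventually.of_forall fun N => by positivity) ?_ hlim
  filter_upwards [hmean, tendsto_loglog.eventually_ge_atTop 4,
    tendsto_loglogLog.eventually_ge_atTop (4 + 8 * (ε + 1) / ε), eventually_ge_atTop 2]
    with N hsum hx hl hN
  obtain ⟨x, hxdef⟩ : ∃ x, x = loglog N := ⟨_, rfl⟩
  obtain ⟨l, hldef⟩ : ∃ l, l = Real.log x := ⟨_, rfl⟩
  rw [← hxdef] at hx hl hsum ⊢
  rw [← hldef] at hl hsum ⊢
  have hq : 0 < 8 * (ε + 1) / ε := by positivity
  have hεl : 4 * ε + 8 * (ε + 1) ≤ ε * l := by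
    have := mul_le_mul_of_nonneg_left hl hε.le
    rw [mul_add, mul_div_cancel₀ _ hε.ne'] at this
    linarith
  have hN0 : (0 : ℝ) < N := Nat.cast_pos.2 (by omega)
  obtain ⟨B, hB⟩ : ∃ B, B = (Icc 1 N).filter fun n => ε / 4 * (x * l) < |logDefect n - x * l| :=
    ⟨_, rfl⟩
  have hsub : ((Icc 1 N).filter fun n => ε * (loglog n * Real.log (loglog n)) <
      |logDefect n - loglog n * Real.log (loglog n)|) ⊆ Icc 1 (Nat.sqrt N + 1) ∪ B := fun n hn => by
    obtain ⟨hnI, hab⟩ := mem_filter.1 hn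
    obtain ⟨hn1, hnN⟩ := mem_Icc.1 hnI
    rw [mem_union, mem_Icc, hB, mem_filter]
    by_cases hsm : n ≤ Nat.sqrt N + 1
    · exact Or.inl ⟨hn1, hsm⟩
    refine Or.inr ⟨hnI, ?_⟩
    obtain ⟨-, -, -, -, h5⟩ := abs_order_sub_le hnN (by omega) (by omega) (hxdef ▸ hx)
    rw [← hxdef, ← hldef] at h5
    obtain ⟨a1, a2⟩ := abs_le.1 h5
    have h6 := mul_le_mul_of_nonneg_left a1 hε.le
    have h7 := mul_le_mul_of_nonneg_right hεl (show 0 ≤ x by linarith)
    have h8 : 0 ≤ ε * x := by positivity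
    rcases lt_abs.1 hab with h | h
    · exact lt_of_lt_of_le (by linarith) (le_abs_self _)
    · exact lt_of_lt_of_le (by linarith) (neg_le_abs _)
  obtain ⟨r, hr⟩ : ∃ r, r = Real.sqrt l := ⟨_, rfl⟩
  obtain ⟨s, hs⟩ : ∃ s, s = Real.sqrt r := ⟨_, rfl⟩
  rw [← hr, ← hs] at hsum
  rw [← hr, ← hs]
  have hr1 : 1 ≤ r := hr ▸ Real.one_le_sqrt.2 (by linarith)
  have hs1 : 1 ≤ s := hs ▸ Real.one_le_sqrt.2 hr1
  have hsr : s * s = r := hs ▸ Real.mul_self_sqrt (by linarith)
  have hrl : r * r = l := hr ▸ Real.mul_self_sqrt (by linarith)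
  have hBle : (B.card : ℝ) * (ε / 4 * (x * l)) ≤ C * N * (x * (r * s)) := by
    refine le_trans ?_ ((sum_le_sum_of_subset_of_nonneg (hB ▸ filter_subset _ _)
      fun n _ _ => abs_nonneg _).trans hsum)
    rw [← nsmul_eq_mul]
    exact card_nsmul_le_sum _ _ _ fun n hn => (mem_filter.1 (hB ▸ hn)).2.le
  refine (div_le_div_of_nonneg_right (Nat.cast_le.2 ((card_le_card hsub).trans
    (card_union_le _ _))) hN0.le).trans ?_
  rw [Nat.card_Icc, Nat.add_sub_cancel, Nat.cast_add, add_div]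
  refine add_le_add le_rfl ?_
  rw [div_div, div_le_div_iff₀ hN0 (by positivity)]
  have hxrs : 0 < x * (r * s) := by positivity
  refine le_of_mul_le_mul_right ?_ hxrs
  rw [← hrl] at hBle
  calc (B.card : ℝ) * (ε * s) * (x * (r * s))
      = 4 * ((B.card : ℝ) * (ε / 4 * (x * (r * r)))) := by
        linear_combination ((B.card : ℝ) * ε * x * r) * hsr
    _ ≤ 4 * (C * N * (x * (r * s))) := by linarith
    _ = 4 * C * (N : ℝ) * (x * (r * s)) := by ring

/-- **The maximal order modulo almost all `n`.** -/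
theorem tendsto_order_atypical {ε : ℝ} (hε : 0 < ε) (A : ℝ) :
    Tendsto (fun N : ℕ => (((Icc 1 N).filter fun n : ℕ =>
      ¬ ((n : ℝ) ^ (1 - ε) < ArithmeticFunction.carmichael n ∧
        (ArithmeticFunction.carmichael n : ℝ) < n / Real.log n ^ A)).card : ℝ) / N)
      atTop (𝓝 0) := by
  have hlim : Tendsto (fun N : ℕ => (((Icc 1 N).filter fun n : ℕ =>
      1 / 2 * (loglog n * Real.log (loglog n)) <
        |logDefect n - loglog n * Real.log (loglog n)|).card : ℝ) / N +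
      ((Nat.sqrt N + 1 : ℕ) : ℝ) / N) atTop (𝓝 0) := by
    simpa using (tendsto_abnormal_defect (show (0 : ℝ) < 1 / 2 by norm_num)).add tendsto_sqrt_div
  refine squeeze_zero' (Eventually.of_forall fun N => by positivity) ?_ hlim
  have hpow : ∀ᶠ N : ℕ in atTop, 2 * loglog N ^ 2 ≤ ε / 4 * Real.log N := by
    filter_upwards [((isLittleO_log_rpow_rpow_atTop 2 (one_pos : (0 : ℝ) < 1)).comp_tendsto
      (Real.tendsto_log_atTop.comp (tendsto_natCast_atTop_atTop (R := ℝ)))).bound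
      (show (0 : ℝ) < ε / 8 by positivity), eventually_ge_atTop 2] with N hN hN2
    simp only [Function.comp_apply, Real.rpow_one, Real.rpow_two, Real.norm_eq_abs, abs_pow,
      sq_abs, abs_of_nonneg (Real.log_natCast_nonneg N)] at hN
    rw [loglog]
    linarith
  filter_upwards [hpow, tendsto_loglog.eventually_ge_atTop 4,
    tendsto_loglogLog.eventually_ge_atTop (2 + 2 * |A|), eventually_ge_atTop 2]
    with N hp hx hl hN
  rw [← add_div]
  refine div_le_div_of_nonneg_right ?_ (Nat.cast_nonneg N)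
  rw [← Nat.cast_add]
  refine Nat.cast_le.2 (le_trans (card_le_card (t := ((Icc 1 N).filter fun n : ℕ =>
      1 / 2 * (loglog n * Real.log (loglog n)) <
        |logDefect n - loglog n * Real.log (loglog n)|) ∪ Icc 1 (Nat.sqrt N + 1)) fun n hn => ?_)
    ((card_union_le _ _).trans (add_le_add le_rfl (le_of_eq (by simp)))))
  obtain ⟨hnI, hbad⟩ := mem_filter.1 hn
  obtain ⟨hn1, hnN⟩ := mem_Icc.1 hnI
  rw [mem_union, mem_filter, mem_Icc (a := 1) (b := Nat.sqrt N + 1)]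
  by_cases hsm : n ≤ Nat.sqrt N + 1
  · exact Or.inr ⟨hn1, hsm⟩
  refine Or.inl ⟨hnI, ?_⟩
  by_contra hab
  refine hbad ?_
  obtain ⟨b1, b2⟩ := abs_le.1 (not_lt.1 hab)
  obtain ⟨h1, h2, h3, h4, -⟩ := abs_order_sub_le hnN (by omega) (by omega) hx
  have hn0 : (0 : ℝ) < n := Nat.cast_pos.2 (by omega)
  have hln : 0 < Real.log n := Real.log_pos (Nat.one_lt_cast.2 (by omega))
  have hc0 : (0 : ℝ) < ArithmeticFunction.carmichael n :=
    Nat.cast_pos.2 (Nat.pos_of_dvd_of_pos (ArithmeticFunction.carmichael_dvd_totient n)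
      (Nat.totient_pos.2 (by omega)))
  have hlN : Real.log N ≤ 2 * Real.log n := by
    rw [two_mul, ← Real.log_mul hn0.ne' hn0.ne']
    refine Real.log_le_log (Nat.cast_pos.2 (by omega)) ?_
    exact_mod_cast (Nat.sqrt_lt.1 (by omega : Nat.sqrt N < n)).le
  rw [logDefect] at b1 b2
  constructor
  · rw [Real.rpow_def_of_pos hn0, ← Real.exp_log hc0, Real.exp_lt_exp]
    have h6 : loglog n * Real.log (loglog n) ≤ loglog N ^ 2 := by
      rw [sq]
      exact mul_le_mul h2 (h4.trans (Real.log_le_self (by linarith)))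
        (by linarith [abs_nonneg A]) (by linarith)
    have := mul_le_mul_of_nonneg_left hlN (show 0 ≤ ε / 4 by positivity)
    have := mul_pos hε hln
    linarith
  · rw [lt_div_iff₀ (Real.rpow_pos_of_pos hln A), Real.rpow_def_of_pos hln, ← Real.exp_log hc0,
      ← Real.exp_add, ← Real.exp_log hn0, Real.exp_lt_exp, Real.exp_log hn0]
    have h6 : A < Real.log (loglog n) / 2 := by linarith [le_abs_self A]
    have h7 : loglog n * A < loglog n * (Real.log (loglog n) / 2) :=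
      mul_lt_mul_of_pos_left h6 (by linarith)
    simp only [loglog] at h7 b1
    linarith

end FA.CarmichaelOrder

end
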