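import Fermat.Agent.CarmichaelOrder.Ratio
import Fermat.Agent.PrimesMinusOne.Moduli
import Mathlib.NumberTheory.Chebyshev

/-!
# The weights of the small primes and the classes `1` modulo `d`

For `y = log log N · √(log log log N)` the mean `∑_{p ≤ N} G p / p` of `G p = ∑ log q`, over the
primes `q ≤ y` dividing `p - 1`, is `log log N · log log log N` up to a smaller term, and for
`d ≤ (log N) ^ 3` the sum of `1 / p` over `p ≤ N` with `d ∣ p - 1` is `O (log log N / φ d)`.
-/

set_option autoImplicit false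

noncomputable section

namespace FA.CarmichaelOrder

open Finset Filter
open FA.ErdosKac (primesUpTo mem_primesUpTo recipSum loglog tendsto_loglog)
open FA.ShiftedPrimeOmega (share)
open scoped Topology ArithmeticFunction.vonMangoldt

/-- `∑_{q ≤ y} log q / (q - 1)`. -/
def shareLog (y : ℕ) : ℝ := ∑ q ∈ primesUpTo y, Real.log q * share q

/-- `∑ 1 / p` over the `p ≤ N` with `d ∣ p - 1`. -/
def classRecip (N d : ℕ) : ℝ :=
  ∑ p ∈ (primesUpTo N).filter (fun p => d ∣ p - 1), (p : ℝ)⁻¹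

/-- The cut `log log N · √(log log log N)`. -/
def smallCut (N : ℕ) : ℕ := ⌊loglog N * Real.sqrt (Real.log (loglog N))⌋₊

theorem classRecip_nonneg (N d : ℕ) : 0 ≤ classRecip N d := sum_nonneg fun _ _ => by positivity

theorem tendsto_loglogLog : Tendsto (fun N : ℕ => Real.log (loglog N)) atTop atTop :=
  Real.tendsto_log_atTop.comp tendsto_loglog

theorem sum_log_primes_le (y : ℕ) : ∑ q ∈ primesUpTo y, Real.log q ≤ 2 * y := by
  have h1 := Chebyshev.theta_le_log4_mul_x (Nat.cast_nonneg (α := ℝ) y)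
  rw [Chebyshev.theta_eq_sum_Icc, Nat.floor_natCast] at h1
  have h2 : Real.log 4 ≤ 2 := by
    rw [show (4 : ℝ) = 2 ^ 2 by norm_num, Real.log_pow]
    push_cast
    linarith [Real.log_two_lt_d9]
  refine le_trans ?_ (h1.trans (mul_le_mul_of_nonneg_right h2 (Nat.cast_nonneg y)))
  refine sum_le_sum_of_subset_of_nonneg (fun q hq => ?_) fun q _ _ => Real.log_natCast_nonneg q
  rw [mem_primesUpTo] at hq
  exact mem_filter.2 ⟨mem_Icc.2 ⟨Nat.zero_le q, hq.2⟩, hq.1⟩

theorem summable_log_div_sq : Summable fun q : ℕ => Real.log q / (q : ℝ) ^ 2 := by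
  refine Summable.of_nonneg_of_le (fun q => div_nonneg (Real.log_natCast_nonneg q)
    (by positivity)) (fun q => ?_)
    ((Real.summable_one_div_nat_rpow.2 (show (1 : ℝ) < 3 / 2 by norm_num)).mul_left 2)
  rcases Nat.eq_zero_or_pos q with rfl | hq
  · simp
  have h0 : (0 : ℝ) < q := Nat.cast_pos.2 hq
  have h1 := Real.log_le_rpow_div h0.le (show (0 : ℝ) < 1 / 2 by norm_num)
  rw [div_le_iff₀ (pow_pos h0 2)]
  refine h1.trans (le_of_eq ?_)
  rw [← Real.rpow_natCast (q : ℝ) 2, mul_assoc, div_mul_eq_mul_div, one_mul,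
    ← Real.rpow_sub h0]
  norm_num
  ring

theorem inv_totient_le_of_isPrimePow {d : ℕ} (hd : IsPrimePow d) :
    ((d.totient : ℕ) : ℝ)⁻¹ ≤ 2 * (d : ℝ)⁻¹ := by
  obtain ⟨q, j, hq, hj, rfl⟩ := (isPrimePow_nat_iff d).1 hd
  obtain ⟨i, rfl⟩ : ∃ i, j = i + 1 := ⟨j - 1, by omega⟩
  rw [Nat.totient_prime_pow_succ hq]
  have h2 : (2 : ℝ) ≤ q := Nat.ofNat_le_cast.2 hq.two_le
  rw [Nat.cast_mul, Nat.cast_pow, Nat.cast_sub hq.one_le, Nat.cast_one, Nat.cast_pow, pow_succ,
    mul_inv, mul_inv, mul_comm (2 : ℝ), mul_assoc]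
  refine mul_le_mul_of_nonneg_left ?_ (by positivity)
  rw [← div_eq_inv_mul, inv_eq_one_div, div_le_div_iff₀ (by linarith) (by linarith)]
  linarith

/-- Mertens' first theorem in the forms needed. -/
theorem exists_log_sums : ∃ C : ℝ, 0 ≤ C ∧ ∀ y : ℕ, 2 ≤ y →
    |shareLog y - Real.log y| ≤ C ∧
    ∑ d ∈ (Icc 1 y).filter (fun d => ¬ d.Prime), Λ d * ((d.totient : ℕ) : ℝ)⁻¹ ≤ C := by
  obtain ⟨C, hC⟩ := ErdosKac.exists_abs_sum_log_div_sub_le
  have hC0 : 0 ≤ C := (abs_nonneg _).trans (hC 1 le_rfl)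
  obtain ⟨S, hS⟩ : ∃ S, S = ∑' q : ℕ, Real.log q / (q : ℝ) ^ 2 := ⟨_, rfl⟩
  have hS0 : 0 ≤ S := hS ▸ tsum_nonneg fun q =>
    div_nonneg (Real.log_natCast_nonneg q) (by positivity)
  refine ⟨2 * C + 2 * S + 12, by positivity, fun y hy => ⟨?_, ?_⟩⟩
  · have h1 : ∑ q ∈ primesUpTo y, Real.log q / q ≤ shareLog y := sum_le_sum fun q hq => by
      rw [div_eq_mul_inv]
      exact mul_le_mul_of_nonneg_left
        (ShiftedPrimeOmega.share_bounds (mem_primesUpTo.1 hq).1.two_le).2.2.2.1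
        (Real.log_natCast_nonneg q)
    have h2 : shareLog y ≤ (∑ q ∈ primesUpTo y, Real.log q / q) + 2 * S := by
      refine (sum_le_sum (g := fun q : ℕ => Real.log q / q + 2 * (Real.log q / (q : ℝ) ^ 2))
        fun q hq => ?_).trans ?_
      · refine (mul_le_mul_of_nonneg_left
          (ShiftedPrimeOmega.share_bounds (mem_primesUpTo.1 hq).1.two_le).2.2.2.2
          (Real.log_natCast_nonneg q)).trans (le_of_eq ?_)
        rw [inv_pow]
        ring
      · rw [sum_add_distrib, ← mul_sum, hS]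
        exact add_le_add le_rfl (mul_le_mul_of_nonneg_left (summable_log_div_sq.sum_le_tsum _
          fun q _ => div_nonneg (Real.log_natCast_nonneg q) (by positivity)) zero_le_two)
    obtain ⟨a1, a2⟩ := abs_le.1 (hC y (by omega))
    rw [abs_le]
    constructor <;> linarith
  · refine (sum_le_sum (g := fun d : ℕ => 2 * (Λ d / d)) fun d _ => ?_).trans ?_
    · by_cases hd : IsPrimePow d
      · refine (mul_le_mul_of_nonneg_left (inv_totient_le_of_isPrimePow hd)
          ArithmeticFunction.vonMangoldt_nonneg).trans (le_of_eq ?_)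
        ring
      · simp [ArithmeticFunction.vonMangoldt_eq_zero_iff.2 hd]
    · rw [← mul_sum]
      have h1 := abs_le.1 (PrimesMinusOne.abs_sum_vonMangoldt_div_sub_le (show 1 ≤ y by omega))
      rw [show Ioc 0 y = Icc 1 y from rfl, ← sum_filter_add_sum_filter_not (Icc 1 y) Nat.Prime,
        ← primesUpTo, sum_congr rfl fun q (hq : q ∈ primesUpTo y) => show Λ q / (q : ℝ) =
          Real.log q / q by rw [ArithmeticFunction.vonMangoldt_apply_prime (mem_primesUpTo.1 hq).1]]
        at h1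
      linarith [(abs_le.1 (hC y (by omega))).1, h1.2]

/-- **The classes `1` modulo `d ≤ (log N) ^ 3`.** -/
theorem exists_classRecip_le : ∃ C : ℝ, 0 ≤ C ∧ ∀ᶠ N : ℕ in atTop, ∀ d : ℕ, 2 ≤ d →
    (d : ℝ) ≤ Real.log N ^ 3 → classRecip N d ≤ C * (loglog N / (d.totient : ℕ)) := by
  refine ⟨7 + 48 * 5, by norm_num, ?_⟩
  filter_upwards [eventually_ge_atTop 16, tendsto_loglog.eventually_ge_atTop 1]
    with N hN hx d hd hdN
  obtain ⟨x, hxdef⟩ : ∃ x, x = loglog N := ⟨_, rfl⟩
  rw [← hxdef] at hx ⊢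
  have hd0 : (0 : ℝ) < d := Nat.cast_pos.2 (by omega)
  have hφ : (0 : ℝ) < (d.totient : ℕ) := Nat.cast_pos.2 (Nat.totient_pos.2 (by omega))
  have hld : Real.log d ≤ 3 * x := by
    refine (Real.log_le_log hd0 hdN).trans (le_of_eq ?_)
    rw [Real.log_pow, hxdef, loglog]
    norm_num
  rw [classRecip, ← sum_filter_add_sum_filter_not _ (fun p => p < d ^ 2)]
  have h1 : ∑ p ∈ ((primesUpTo N).filter fun p => d ∣ p - 1).filter (fun p => p < d ^ 2),
      (p : ℝ)⁻¹ ≤ 7 * (x / (d.totient : ℕ)) := by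
    refine (sum_le_sum_of_subset_of_nonneg
      (t := (primesUpTo (d ^ 2)).filter fun p => d ∣ p - 1) (fun p hp => ?_)
      fun _ _ _ => by positivity).trans ((OmegaPhi.recip_class_le (by omega) (d ^ 2)).trans ?_)
    · rw [mem_filter, mem_filter, mem_primesUpTo] at hp
      rw [mem_filter, mem_primesUpTo]
      exact ⟨⟨hp.1.1.1, hp.2.le⟩, hp.1.2⟩
    · rw [Nat.cast_pow, Real.log_pow, mul_div_assoc']
      refine div_le_div₀ (by linarith) ?_ hφ (Nat.cast_le.2 (Nat.totient_le d))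
      push_cast
      linarith
  have h2 : ∑ p ∈ ((primesUpTo N).filter fun p => d ∣ p - 1).filter (fun p => ¬ p < d ^ 2),
      (p : ℝ)⁻¹ ≤ 48 / (d.totient : ℕ) * (x + 4) := by
    obtain ⟨h, hh⟩ : ∃ h : ℕ → ℝ,
        h = fun p => if d ∣ p - 1 ∧ d ^ 2 ≤ p then (1 : ℝ) else 0 := ⟨_, rfl⟩
    refine le_trans (le_of_eq ?_) ((le_abs_self _).trans ((OmegaPhi.abs_sum_div_le (h := h)
      (M := 48 / (d.totient : ℕ)) (show 2 ≤ N by omega) fun m hm hmN => ?_).trans
        (by rw [← hxdef])))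
    · rw [filter_filter, sum_filter]
      refine sum_congr rfl fun p _ => ?_
      rw [hh]
      simp only [not_lt]
      split_ifs <;> simp
    · rw [hh, abs_of_nonneg (sum_nonneg fun p _ => by split_ifs <;> norm_num), sum_boole]
      rcases lt_or_ge m (d ^ 2) with hlt | hge
      · rw [filter_false_of_mem fun p hp h => by
          have := (mem_primesUpTo.1 hp).2
          omega, card_empty, Nat.cast_zero]
        exact mul_nonneg (div_nonneg (by norm_num) hφ.le) (OmegaPhi.div_log_pos hm).le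
      · have hdm : d < m := lt_of_lt_of_le (lt_self_pow₀ (by omega) one_lt_two) hge
        refine le_trans (Nat.cast_le.2 (card_le_card (t := (Icc 1 m).filter fun p =>
          p.Prime ∧ p ≡ 1 [MOD d]) fun p hp => ?_)) ?_
        · rw [mem_filter, mem_primesUpTo] at hp
          rw [mem_filter, mem_Icc]
          exact ⟨⟨hp.1.1.one_le, hp.1.2⟩, hp.1.1,
            ((Nat.modEq_iff_dvd' hp.1.1.one_le).2 hp.2.1).symm⟩
        refine (PrimesMinusOne.piOne_brunTitchmarsh (by omega : 0 < d) hdm).trans ?_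
        have hm0 : (0 : ℝ) < m := Nat.cast_pos.2 (by omega)
        have hlm : 0 < Real.log m := Real.log_pos (Nat.one_lt_cast.2 (by omega))
        have h2d : 2 * Real.log d ≤ Real.log m := by
          have h := Real.log_le_log (pow_pos hd0 2)
            (show ((d : ℝ) ^ 2) ≤ m by exact_mod_cast hge)
          rw [Real.log_pow] at h
          exact_mod_cast h
        rw [Real.log_div hm0.ne' hd0.ne']
        refine (div_le_div_of_nonneg_left (by positivity)
          (mul_pos hφ (half_pos hlm)) (mul_le_mul_of_nonneg_left (by linarith) hφ.le)).trans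
          (le_of_eq ?_)
        field_simp
        ring
  have h3 : 48 / ((d.totient : ℕ) : ℝ) * (x + 4) ≤ 48 * 5 * (x / (d.totient : ℕ)) := by
    rw [div_mul_eq_mul_div, mul_div_assoc']
    exact div_le_div_of_nonneg_right (by linarith) hφ.le
  linarith

/-- **The mean of `G` and its crude second moment.** -/
theorem exists_mean : ∃ C : ℝ, 0 ≤ C ∧ ∀ᶠ N : ℕ in atTop,
    2 ≤ smallCut N ∧
    |(∑ p ∈ primesUpTo N, smallLog (smallCut N) p / p) - loglog N * Real.log (loglog N)| ≤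
      C * (loglog N * Real.sqrt (Real.log (loglog N))) ∧
    ∑ p ∈ primesUpTo N, smallLog (smallCut N) p ^ 2 / p ≤
      C * (loglog N ^ 2 * (Real.sqrt (Real.log (loglog N)) * Real.log (loglog N))) ∧
    ∑ p ∈ primesUpTo N, smallLog (smallCut N) p ≤
      C * N * Real.sqrt (Real.log (loglog N)) ∧
    ∑ q ∈ primesUpTo (smallCut N), Real.log q ≤
      2 * (loglog N * Real.sqrt (Real.log (loglog N))) := by
  obtain ⟨CS, hCS, hshare⟩ := exists_log_sums
  obtain ⟨Cπ, hCπ, hπ⟩ := OmegaPhi.exists_card_le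
  obtain ⟨C', hC', hlev⟩ := OmegaPhi.exists_level_pred
  obtain ⟨C₁, hC₁⟩ := FA.ErdosKac.exists_abs_recipSum_sub_le
  have hC₁0 : 0 ≤ C₁ := (abs_nonneg _).trans (hC₁ 2 le_rfl)
  obtain ⟨m₀, hm₀⟩ := eventually_atTop.1 (hlev.and (eventually_ge_atTop 2))
  obtain ⟨K, hK⟩ : ∃ K, K = (CS + 2) * (C₁ + 1) + C₁ + 1 +
      (Cπ * (9 + CS)) * (11 * 16) + 40 * C' * (CS + 3) := ⟨_, rfl⟩
  have hK0 : 0 ≤ K := hK ▸ by positivity
  refine ⟨2 * (K + 1) + 2 * Cπ, by positivity, ?_⟩
  filter_upwards [tendsto_loglog.eventually_ge_atTop (max 4 (m₀ : ℝ)),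
    tendsto_loglogLog.eventually_ge_atTop 4, eventually_ge_atTop 16,
    BombieriVinogradov.eventually_log_pow_le 7 (show (0 : ℝ) < 1 by norm_num)]
    with N hx hl hN hpow
  rw [Real.rpow_one] at hpow
  obtain ⟨x, hxdef⟩ : ∃ x, x = loglog N := ⟨_, rfl⟩
  obtain ⟨l, hldef⟩ : ∃ l, l = Real.log x := ⟨_, rfl⟩
  obtain ⟨r, hr⟩ : ∃ r, r = Real.sqrt l := ⟨_, rfl⟩
  obtain ⟨y, hy⟩ : ∃ y, y = smallCut N := ⟨_, rfl⟩
  rw [← hxdef] at hx hl ⊢
  rw [← hldef] at hl ⊢
  rw [← hr, ← hy]
  have hx4 : 4 ≤ x := le_of_max_le_left hx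
  have hxm : (m₀ : ℝ) ≤ x := le_of_max_le_right hx
  have hxL : x ≤ Real.log N := hxdef ▸ OmegaPhi.loglog_le_log N (by omega)
  have hr2 : 2 ≤ r := by
    rw [hr, Real.le_sqrt' two_pos]
    norm_num
    linarith
  have hrl : r * r = l := hr ▸ Real.mul_self_sqrt (by linarith)
  have hrle : r ≤ l := by
    have := mul_le_mul_of_nonneg_right hr2 (show 0 ≤ r by linarith)
    linarith
  have hlx : l ≤ x := hldef ▸ Real.log_le_self (by linarith)
  have hl2 : l ^ 2 ≤ 16 * x := by
    have h := Real.log_le_rpow_div (show 0 ≤ x by linarith) (show (0 : ℝ) < 1 / 4 by norm_num)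
    rw [← hldef] at h
    refine (pow_le_pow_left₀ (by linarith) h 2).trans ?_
    rw [div_pow, ← Real.rpow_natCast (x ^ (1 / 4 : ℝ)) 2, ← Real.rpow_mul (by linarith)]
    have h2 : x ^ (1 / 4 * ((2 : ℕ) : ℝ)) ≤ x :=
      le_trans (Real.rpow_le_rpow_of_exponent_le (by linarith) (by norm_num))
        (Real.rpow_one x).le
    norm_num at h2 ⊢
    linarith
  have hyx : (y : ℝ) ≤ x * r := by
    rw [hy, smallCut, ← hxdef, ← hldef, ← hr]
    exact Nat.floor_le (by nlinarith)
  have hyx' : x * r < (y : ℝ) + 1 := by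
    rw [hy, smallCut, ← hxdef, ← hldef, ← hr]
    exact Nat.lt_floor_add_one _
  have hxr : 8 ≤ x * r := by nlinarith
  have hy2 : 2 ≤ y := by
    have : (2 : ℝ) ≤ y := by linarith
    exact_mod_cast this
  have hy0 : (0 : ℝ) < y := Nat.cast_pos.2 (by omega)
  have hlogy : |Real.log y - l| ≤ r + 1 := by
    have h1 := Real.log_le_log hy0 hyx
    rw [Real.log_mul (by linarith) (by linarith), ← hldef] at h1
    have h2 := Real.log_le_log (show 0 < x by linarith) (show x ≤ 2 * (y : ℝ) by nlinarith)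
    rw [Real.log_mul two_ne_zero hy0.ne', ← hldef] at h2
    have h3 := Real.log_le_self (show 0 ≤ r by linarith)
    rw [abs_le]
    constructor <;> linarith [Real.log_two_lt_d9]
  obtain ⟨S, hS⟩ : ∃ S, S = shareLog y := ⟨_, rfl⟩
  have hS0 : 0 ≤ S := hS ▸ sum_nonneg fun q hq => mul_nonneg (Real.log_natCast_nonneg q)
    (ShiftedPrimeOmega.share_bounds (mem_primesUpTo.1 hq).1.two_le).1
  have hSl : |S - l| ≤ r + 1 + CS := by
    have h := abs_sub_le S (Real.log y) l
    have h' : |S - Real.log y| ≤ CS := hS ▸ (hshare y hy2).1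
    linarith
  have hS3 : S ≤ (3 + CS) * l := by
    have h1 := mul_le_mul_of_nonneg_left (show 1 ≤ l by linarith) hCS
    linarith [(abs_le.1 hSl).2]
  have hθ : ∑ q ∈ primesUpTo y, Real.log q ≤ 2 * (x * r) :=
    (sum_log_primes_le y).trans (by linarith)
  obtain ⟨G, hG⟩ : ∃ G : ℕ → ℝ, G = smallLog y := ⟨_, rfl⟩
  have hG0 : ∀ p, 0 ≤ G p := fun p => hG ▸ smallLog_nonneg y p
  have hGθ : ∀ p, G p ≤ 2 * (x * r) := fun p => le_trans (by
    rw [hG]
    exact sum_le_sum_of_subset_of_nonneg (filter_subset _ _)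
      fun q _ _ => Real.log_natCast_nonneg q) hθ
  have hGlog : ∀ p, 2 ≤ p → G p ≤ Real.log p := fun p hp => by
    have hprime : ∀ q ∈ (primesUpTo y).filter (· ∣ p - 1), q.Prime := fun q hq =>
      (mem_primesUpTo.1 (mem_filter.1 hq).1).1
    have hd : ∏ q ∈ (primesUpTo y).filter (· ∣ p - 1), q ∣ p - 1 :=
      prod_primes_dvd _ (fun q hq => (hprime q hq).prime) fun q hq => (mem_filter.1 hq).2
    rw [hG, smallLog, ← Real.log_prod fun q hq => Nat.cast_ne_zero.2 (hprime q hq).ne_zero,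
      ← Nat.cast_prod]
    exact Real.log_le_log (Nat.cast_pos.2 (prod_pos fun q hq => (hprime q hq).pos))
      (Nat.cast_le.2 ((Nat.le_of_dvd (by omega) hd).trans (Nat.sub_le p 1)))
  rw [← hG]
  -- the split
  obtain ⟨m₁, hm₁⟩ : ∃ m₁, m₁ = ⌈x ^ 6⌉₊ := ⟨_, rfl⟩
  have hm1x : x ^ 6 ≤ (m₁ : ℝ) := hm₁ ▸ Nat.le_ceil _
  have hx61 : 1 ≤ x ^ 6 := one_le_pow₀ (by linarith)
  have hm12 : (m₁ : ℝ) ≤ 2 * x ^ 6 := by
    rw [hm₁]
    linarith [Nat.ceil_lt_add_one (show 0 ≤ x ^ 6 by positivity)]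
  have hxm1 : x ≤ (m₁ : ℝ) := (le_self_pow₀ (by linarith) (by norm_num)).trans hm1x
  have hm1two : 2 ≤ m₁ := by
    have : (2 : ℝ) ≤ m₁ := by linarith
    exact_mod_cast this
  have hm10 : m₀ ≤ m₁ := by
    have : (m₀ : ℝ) ≤ m₁ := hxm.trans hxm1
    exact_mod_cast this
  have hm1N : m₁ ≤ N := by
    have h7 : 2 * x ^ 6 ≤ Real.log N ^ 7 := by
      rw [pow_succ' _ 6]
      exact mul_le_mul (by linarith) (pow_le_pow_left₀ (by linarith) hxL 6) (by positivity)
        (by linarith)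
    have : (m₁ : ℝ) ≤ N := hm12.trans (h7.trans hpow)
    exact_mod_cast this
  have hlm1 : 6 * l ≤ Real.log m₁ ∧ Real.log m₁ ≤ 7 * l := by
    constructor
    · have h := Real.log_le_log (show 0 < x ^ 6 by positivity) hm1x
      rw [Real.log_pow, ← hldef] at h
      exact_mod_cast h
    · have h := Real.log_le_log (show (0 : ℝ) < m₁ by linarith) hm12
      rw [Real.log_mul two_ne_zero (by positivity), Real.log_pow, ← hldef] at h
      push_cast at h
      linarith [Real.log_two_lt_d9]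
  have hyz : ∀ m, m₁ ≤ m → y ^ 1 ≤ Nat.sqrt (Nat.sqrt m) := fun m hm => by
    rw [pow_one]
    refine ShiftedPrimeOmega.le_sqrt_sqrt ?_
    have h4 : (y : ℝ) ^ 4 ≤ m₁ := by
      refine le_trans (pow_le_pow_left₀ hy0.le hyx 4) (le_trans ?_ hm1x)
      rw [mul_pow, show r ^ 4 = (r * r) ^ 2 by ring, hrl, show x ^ 6 = x ^ 4 * x ^ 2 by ring]
      exact mul_le_mul_of_nonneg_left (pow_le_pow_left₀ (by linarith) hlx 2) (by positivity)
    have h5 : y ^ 4 ≤ m₁ := by exact_mod_cast h4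
    omega
  obtain ⟨h, hh⟩ : ∃ h : ℕ → ℝ, h = fun p => G p - S := ⟨_, rfl⟩
  have hbigm : ∀ m, m₁ ≤ m →
      |∑ p ∈ primesUpTo m, h p| ≤ C' * (CS + 3) * ((m : ℝ) / Real.log m) := by
    intro m hm
    obtain ⟨⟨hl1, h0, -⟩, -⟩ := hm₀ m (hm10.trans hm)
    have hm0 : (0 : ℝ) < m := Nat.cast_pos.2 (by omega)
    have hLm : 6 * l ≤ Real.log m := hlm1.1.trans
      (Real.log_le_log (by linarith) (Nat.cast_le.2 hm))
    obtain ⟨E, hE⟩ : ∃ E, E = C' * ((m : ℝ) / Real.log m ^ 6) := ⟨_, rfl⟩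
    have h1 := hl1 y 1 (hyz m hm)
    rw [← hE] at h0 h1
    rw [powersetCard_one, sum_map] at h1
    simp only [Function.Embedding.coeFn_mk, mem_singleton, forall_eq, prod_singleton] at h1
    obtain ⟨c, hc⟩ : ∃ c : ℕ → ℝ,
        c = fun q => (((primesUpTo m).filter fun p => q ∣ p - 1).card : ℝ) := ⟨_, rfl⟩
    have e : ∑ p ∈ primesUpTo m, G p = ∑ q ∈ primesUpTo y, Real.log q * c q := by
      simp only [hG, smallLog, sum_filter]
      rw [sum_comm, hc]
      refine sum_congr rfl fun q _ => ?_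
      rw [← sum_filter, sum_const, nsmul_eq_mul, mul_comm]
    rw [hh, sum_sub_distrib, sum_const, nsmul_eq_mul, e, mul_comm _ S, hS, shareLog, sum_mul,
      ← sum_sub_distrib]
    refine (abs_sum_le_sum_abs _ _).trans ((sum_le_sum (g := fun q =>
      Real.log y * |c q - share q * ShiftedPrimeOmega.recipLogSum m| +
        Real.log q * share q * E) fun q hq => ?_).trans ?_)
    · obtain ⟨hqp, hqy⟩ := mem_primesUpTo.1 hq
      have hlq := Real.log_natCast_nonneg q
      have hsq := (ShiftedPrimeOmega.share_bounds hqp.two_le).1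
      rw [show Real.log q * c q - Real.log q * share q * ((primesUpTo m).card : ℝ) =
        Real.log q * (c q - share q * ShiftedPrimeOmega.recipLogSum m) +
          Real.log q * share q * (ShiftedPrimeOmega.recipLogSum m - (primesUpTo m).card) by ring]
      refine (abs_add_le _ _).trans (add_le_add ?_ ?_)
      · rw [abs_mul, abs_of_nonneg hlq]
        exact mul_le_mul_of_nonneg_right (Real.log_le_log (Nat.cast_pos.2 hqp.pos)
          (Nat.cast_le.2 hqy)) (abs_nonneg _)
      · rw [abs_mul, abs_of_nonneg (mul_nonneg hlq hsq), abs_sub_comm]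
        exact mul_le_mul_of_nonneg_left h0 (mul_nonneg hlq hsq)
    · rw [sum_add_distrib, ← mul_sum, ← sum_mul, ← shareLog, ← hS]
      have hE0 : 0 ≤ E := (abs_nonneg _).trans h0
      have hly : Real.log y ≤ 3 * l := by linarith [(abs_le.1 hlogy).2]
      have hh1 : Real.log y * (∑ q ∈ primesUpTo y,
          |c q - share q * ShiftedPrimeOmega.recipLogSum m|) ≤ 3 * l * E :=
        mul_le_mul hly (hc ▸ h1) (sum_nonneg fun q _ => abs_nonneg _) (by linarith)
      have hh2 := mul_le_mul_of_nonneg_right hS3 hE0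
      refine (show _ ≤ (CS + 6) * l * E by linarith).trans ?_
      rw [hE]
      have hl6 : 6 * l * Real.log m ≤ Real.log m ^ 6 := by
        refine (mul_le_mul_of_nonneg_right hLm (by linarith)).trans ?_
        rw [← sq]
        exact pow_le_pow_right₀ (by linarith) (by norm_num)
      rw [mul_div_assoc', mul_div_assoc', mul_div_assoc',
        div_le_div_iff₀ (pow_pos (by linarith) 6) (by linarith)]
      have := mul_le_mul_of_nonneg_left hl6 (show 0 ≤ C' * (CS + 3) * m by positivity)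
      have hp0 : 0 ≤ (m : ℝ) * (l * Real.log m) :=
        mul_nonneg hm0.le (mul_nonneg (by linarith) (by linarith))
      linarith [mul_nonneg (mul_nonneg hC'.le hCS) hp0, mul_nonneg hC'.le hp0]
  have hsmall : |∑ p ∈ primesUpTo m₁, h p / p| ≤ Cπ * (9 + CS) * l * (Real.log (7 * l) + 4) := by
    refine (OmegaPhi.abs_sum_div_le (M := Cπ * (9 + CS) * l) hm1two fun m hm hmm => ?_).trans ?_
    · refine (abs_sum_le_sum_abs _ _).trans ((sum_le_card_nsmul _ _ ((9 + CS) * l) fun p hp =>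
        ?_).trans ?_)
      · obtain ⟨hpp, hpm⟩ := mem_primesUpTo.1 hp
        have h1 : G p ≤ 7 * l := (hGlog p hpp.two_le).trans ((Real.log_le_log
          (Nat.cast_pos.2 hpp.pos) (Nat.cast_le.2 (hpm.trans hmm))).trans hlm1.2)
        have hh' : h p = G p - S := by rw [hh]
        rw [hh', abs_le]
        constructor <;> nlinarith [hG0 p]
      · rw [nsmul_eq_mul]
        refine (mul_le_mul_of_nonneg_right (hπ m hm) (by positivity)).trans (le_of_eq ?_)
        ring
    · refine mul_le_mul_of_nonneg_left (add_le_add ?_ le_rfl) (by positivity)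
      rw [loglog]
      exact Real.log_le_log (by linarith [hlm1.1]) hlm1.2
  have hrest : |(∑ p ∈ primesUpTo N, h p / p) - ∑ p ∈ primesUpTo m₁, h p / p| ≤
      C' * (CS + 3) * 4 * (x + 4) := by
    obtain ⟨h', hh'⟩ : ∃ h' : ℕ → ℝ, h' = fun p => if m₁ < p then h p else 0 := ⟨_, rfl⟩
    have e : ∀ (F : ℕ → ℝ) (m : ℕ), m₁ ≤ m → (∑ p ∈ primesUpTo m, if m₁ < p then F p else 0) =
        (∑ p ∈ primesUpTo m, F p) - ∑ p ∈ primesUpTo m₁, F p := fun F m hm => by
      rw [← sum_filter, ← sum_filter_add_sum_filter_not (primesUpTo m) (m₁ < ·),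
        show (primesUpTo m).filter (fun p => ¬ m₁ < p) = primesUpTo m₁ by
          ext p
          simp only [mem_filter, mem_primesUpTo]
          exact ⟨fun h => ⟨h.1.1, not_lt.1 h.2⟩, fun h => ⟨⟨h.1, h.2.trans hm⟩, not_lt.2 h.2⟩⟩,
        add_sub_cancel_right]
    rw [← e (fun p => h p / p) N hm1N, sum_congr rfl fun p _ => show
      (if m₁ < p then h p / (p : ℝ) else 0) = h' p / p by rw [hh']; simp only; split_ifs <;> simp]
    refine (OmegaPhi.abs_sum_div_le (M := C' * (CS + 3) * 4) (show 2 ≤ N by omega)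
      fun m hm hmN => ?_).trans (le_of_eq (by rw [← hxdef]))
    rcases le_or_gt m₁ m with hge | hlt
    · rw [hh', e h m hge]
      have hu : ((m₁ : ℕ) : ℝ) / Real.log m₁ ≤ (m : ℝ) / Real.log m := by
        have hm1' : (0 : ℝ) < m₁ := by linarith
        have hL1 : 1 ≤ Real.log m₁ := by linarith [hlm1.1]
        have hlm := Real.log_le_log hm1' (Nat.cast_le (α := ℝ).2 hge)
        have h2 := Real.log_le_sub_one_of_pos
          (div_pos (lt_of_lt_of_le hm1' (Nat.cast_le.2 hge)) hm1' : (0 : ℝ) < (m : ℝ) / m₁)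
        rw [Real.log_div (lt_of_lt_of_le hm1' (Nat.cast_le.2 hge)).ne' hm1'.ne'] at h2
        have h3 : (0 : ℝ) ≤ (m : ℝ) / m₁ - 1 := by linarith
        have h4 := le_mul_of_one_le_right h3 hL1
        rw [div_le_div_iff₀ (by linarith) (by linarith)]
        have h5 : (m : ℝ) / m₁ * m₁ = m := div_mul_cancel₀ _ hm1'.ne'
        nlinarith
      refine (abs_sub _ _).trans ((add_le_add (hbigm m hge) ((hbigm m₁ le_rfl).trans
        (mul_le_mul_of_nonneg_left hu (by positivity)))).trans ?_)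
      have := mul_nonneg (show 0 ≤ C' * (CS + 3) by positivity) (OmegaPhi.div_log_pos hm).le
      linarith
    · rw [hh', sum_eq_zero fun p hp => if_neg (not_lt.2 ((mem_primesUpTo.1 hp).2.trans hlt.le)),
        abs_zero]
      exact mul_nonneg (by positivity) (OmegaPhi.div_log_pos hm).le
  obtain ⟨μ, hμ⟩ : ∃ μ, μ = ∑ p ∈ primesUpTo N, G p / p := ⟨_, rfl⟩
  have hsplit : ∑ p ∈ primesUpTo N, h p / p = μ - S * recipSum N := by
    rw [hμ, recipSum, mul_sum, ← sum_sub_distrib, hh]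
    exact sum_congr rfl fun p _ => by ring
  have hμle : |μ - x * l| ≤ K * (x * r) := by
    have hR : |recipSum N - x| ≤ C₁ := hxdef ▸ hC₁ N (by omega)
    have h7 : Real.log (7 * l) + 4 ≤ 11 * l := by
      linarith [Real.log_le_self (show 0 ≤ 7 * l by linarith)]
    have hA : |S * recipSum N - x * l| ≤ (r + 1 + CS) * x + (3 + CS) * l * C₁ := by
      rw [show S * recipSum N - x * l = (S - l) * x + S * (recipSum N - x) by ring]
      refine (abs_add_le _ _).trans (add_le_add ?_ ?_)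
      · rw [abs_mul, abs_of_nonneg (by linarith : (0 : ℝ) ≤ x)]
        exact mul_le_mul_of_nonneg_right hSl (by linarith)
      · rw [abs_mul, abs_of_nonneg hS0]
        exact mul_le_mul hS3 hR (abs_nonneg _) (mul_nonneg (by linarith) (by linarith))
    obtain ⟨A, hAdef⟩ : ∃ A, A = ∑ p ∈ primesUpTo m₁, h p / p := ⟨_, rfl⟩
    rw [← hAdef] at hsmall hrest
    rw [hsplit] at hrest
    have e1 : |μ - x * l| ≤ |μ - S * recipSum N - A| + |A| + |S * recipSum N - x * l| := by
      have := abs_add_three (μ - S * recipSum N - A) A (S * recipSum N - x * l)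
      rwa [show μ - S * recipSum N - A + A + (S * recipSum N - x * l) = μ - x * l by ring] at this
    have e2 : Cπ * (9 + CS) * l * (Real.log (7 * l) + 4) ≤ Cπ * (9 + CS) * (11 * 16) * x := by
      refine (mul_le_mul_of_nonneg_left h7 (by positivity)).trans ?_
      have := mul_le_mul_of_nonneg_left hl2 (show 0 ≤ Cπ * (9 + CS) * 11 by positivity)
      linarith
    have hxr1 : x ≤ x * r := le_mul_of_one_le_right (by linarith) (by linarith)
    have hlr : l ≤ x * r := hlx.trans hxr1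
    have f1 := mul_le_mul_of_nonneg_left hxr1 (show 0 ≤ Cπ * (9 + CS) * (11 * 16) by positivity)
    have f2 := mul_le_mul_of_nonneg_left hxr1 hCS
    have f3 := mul_le_mul_of_nonneg_left hlr (show 0 ≤ (3 + CS) * C₁ by positivity)
    have f4 := mul_le_mul_of_nonneg_left hxr1 (show 0 ≤ C' * (CS + 3) by positivity)
    have f5 : 0 ≤ C' * (CS + 3) * (x - 1) := mul_nonneg (by positivity) (by linarith)
    have f6 : 0 ≤ C₁ * (x * r) ∧ 0 ≤ CS * (x * r) ∧ 0 ≤ C₁ * CS * (x * r) := by
      refine ⟨?_, ?_, ?_⟩ <;> positivity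
    obtain ⟨g1, g2, g3⟩ := f6
    rw [hK]
    nlinarith
  refine ⟨hy2, hμ ▸ ?_, ?_, ?_, hθ⟩
  · refine hμle.trans (mul_le_mul_of_nonneg_right (by linarith) (by positivity))
  · have hμ2 : μ ≤ (1 + K) * (x * l) := by
      have := mul_le_mul_of_nonneg_left (mul_le_mul_of_nonneg_left hrle (show 0 ≤ x by linarith))
        hK0
      linarith [(abs_le.1 hμle).2]
    refine (sum_le_sum (g := fun p : ℕ => 2 * (x * r) * (G p / p)) fun p _ => ?_).trans ?_
    · rw [mul_div_assoc', sq]
      exact div_le_div_of_nonneg_right (mul_le_mul_of_nonneg_right (hGθ p) (hG0 p))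
        (Nat.cast_nonneg p)
    · rw [← mul_sum, ← hμ]
      refine (mul_le_mul_of_nonneg_left hμ2 (by positivity)).trans ?_
      have : 0 ≤ Cπ * (x ^ 2 * (r * l)) := by positivity
      nlinarith
  · refine (sum_le_card_nsmul _ _ _ fun p _ => hGθ p).trans ?_
    rw [nsmul_eq_mul]
    refine (mul_le_mul_of_nonneg_right (hπ N (by omega)) (by positivity)).trans ?_
    have hlN : 0 < Real.log N := by linarith
    rw [mul_div_assoc', div_mul_eq_mul_div, div_le_iff₀ hlN]
    have h1 := mul_le_mul_of_nonneg_left hxL (show 0 ≤ 2 * Cπ * N * r by positivity)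
    have h2 : 0 ≤ (2 * (K + 1)) * N * r * Real.log N := by positivity
    nlinarith

end FA.CarmichaelOrder

end
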