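import Fermat.Agent.OmegaPhi.Totient
import Mathlib.NumberTheory.ArithmeticFunction.Carmichael

/-!
# The ratio `φ n / λ n`

`λ n` is, up to a factor `2`, the least common multiple of the `φ (p ^ k)`, so the logarithm of
`φ n / λ n` is, up to `log 2`, a sum over the prime powers `d` of `Λ d` times one less than the
number of the `φ (p ^ k)` that `d` divides.
-/

set_option autoImplicit false

noncomputable section

namespace FA.CarmichaelOrder

open Finset
open FA.ErdosKac (primesUpTo mem_primesUpTo)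
open scoped ArithmeticFunction.vonMangoldt

/-- `φ (p ^ k)` for the exact power `p ^ k` of `p` in `n`. -/
def phiPart (n p : ℕ) : ℕ := p ^ (n.factorization p - 1) * (p - 1)

/-- `∑ log q` over the primes `q ≤ y` dividing `p - 1`. -/
def smallLog (y p : ℕ) : ℝ := ∑ q ∈ (primesUpTo y).filter (· ∣ p - 1), Real.log q

/-- The number of the `p ∣ n` with `d ∣ p - 1`. -/
def hitCount (n d : ℕ) : ℝ := ((n.primeFactors.filter fun p => d ∣ p - 1).card : ℝ)

theorem smallLog_nonneg (y p : ℕ) : 0 ≤ smallLog y p :=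
  sum_nonneg fun q _ => Real.log_natCast_nonneg q

theorem hitCount_nonneg (n d : ℕ) : 0 ≤ hitCount n d := Nat.cast_nonneg _

theorem phiPart_pos {n p : ℕ} (hp : p ∈ n.primeFactors) : 0 < phiPart n p := by
  have := (Nat.prime_of_mem_primeFactors hp).two_le
  exact Nat.mul_pos (pow_pos (by omega) _) (by omega)

theorem phiPart_eq_totient {n p : ℕ} (hp : p ∈ n.primeFactors) :
    phiPart n p = (p ^ n.factorization p).totient := by
  rw [phiPart, Nat.totient_prime_pow (Nat.prime_of_mem_primeFactors hp)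
    (OmegaPhi.one_le_factorization hp)]

theorem totient_eq_prod_phiPart {n : ℕ} (hn : n ≠ 0) :
    n.totient = ∏ p ∈ n.primeFactors, phiPart n p :=
  OmegaPhi.totient_eq_prod hn

theorem carmichael_dvd_lcm {n : ℕ} (hn : n ≠ 0) :
    ArithmeticFunction.carmichael n ∣ n.primeFactors.lcm (phiPart n) := by
  have : NeZero n := ⟨hn⟩
  rw [ArithmeticFunction.carmichael_factorization n]
  refine Finset.lcm_dvd fun p hp => dvd_trans ?_ (Finset.dvd_lcm hp)
  rw [phiPart_eq_totient hp]
  exact ArithmeticFunction.carmichael_dvd_totient _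

theorem lcm_dvd_two_mul_carmichael {n : ℕ} (hn : n ≠ 0) :
    n.primeFactors.lcm (phiPart n) ∣ 2 * ArithmeticFunction.carmichael n := by
  have : NeZero n := ⟨hn⟩
  refine Finset.lcm_dvd fun p hp => ?_
  have hpp := Nat.prime_of_mem_primeFactors hp
  have h1 : ArithmeticFunction.carmichael (p ^ n.factorization p) ∣
      ArithmeticFunction.carmichael n :=
    ArithmeticFunction.carmichael_dvd (Nat.ordProj_dvd n p)
  rw [phiPart_eq_totient hp]
  by_cases h2 : p = 2
  · subst h2
    rcases le_or_gt 3 (n.factorization 2) with h3 | h3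
    · rw [← ArithmeticFunction.two_mul_carmichael_two_pow_of_three_le_eq_totient h3]
      exact Nat.mul_dvd_mul_left 2 h1
    · rw [← ArithmeticFunction.carmichael_two_pow_of_le_two_eq_totient (by omega)]
      exact dvd_mul_of_dvd_right h1 2
  · rw [← ArithmeticFunction.carmichael_pow_of_prime_ne_two _ hpp h2]
    exact dvd_mul_of_dvd_right h1 2

theorem log_eq_sum_vonMangoldt {m N : ℕ} (hm : 0 < m) (hmN : m ≤ N) :
    Real.log m = ∑ d ∈ Icc 1 N, if d ∣ m then Λ d else 0 := by
  rw [← ArithmeticFunction.vonMangoldt_sum, ← sum_filter]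
  refine sum_congr ?_ fun _ _ => rfl
  ext d
  simp only [Nat.mem_divisors, mem_filter, mem_Icc]
  exact ⟨fun h => ⟨⟨Nat.pos_of_dvd_of_pos h.1 hm, (Nat.le_of_dvd hm h.1).trans hmN⟩, h.1⟩,
    fun h => ⟨h.2, hm.ne'⟩⟩

theorem exists_dvd_of_dvd_lcm {n d : ℕ} (hd : IsPrimePow d)
    (h : d ∣ n.primeFactors.lcm (phiPart n)) : ∃ p ∈ n.primeFactors, d ∣ phiPart n p := by
  obtain ⟨q, j, hq, hj, rfl⟩ := (isPrimePow_nat_iff d).1 hd
  have h0 : n.primeFactors.lcm (phiPart n) ≠ 0 := by
    rw [Ne, Finset.lcm_eq_zero_iff]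
    rintro ⟨p, hp, hp0⟩
    exact (phiPart_pos hp).ne' hp0
  rw [hq.pow_dvd_iff_le_factorization h0,
    Finset.factorization_lcm (fun p hp => (phiPart_pos hp).ne'),
    Finset.le_sup_iff (show ⊥ < j from hj)] at h
  obtain ⟨p, hp, hle⟩ := h
  exact ⟨p, hp, (hq.pow_dvd_iff_le_factorization (phiPart_pos hp).ne').2 hle⟩

/-- `log n - log φ n`. -/
theorem log_sub_log_totient {n : ℕ} (hn : n ≠ 0) :
    0 ≤ Real.log n - Real.log n.totient ∧
    Real.log n - Real.log n.totient ≤ ∑ p ∈ n.primeFactors, 2 * (p : ℝ)⁻¹ := by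
  have hφ : 0 < n.totient := Nat.totient_pos.2 (Nat.pos_of_ne_zero hn)
  refine ⟨sub_nonneg.2 (Real.log_le_log (Nat.cast_pos.2 hφ) (Nat.cast_le.2 (Nat.totient_le n))),
    ?_⟩
  have h := Nat.totient_mul_prod_primeFactors n
  have hR : (n.totient : ℝ) * ∏ p ∈ n.primeFactors, (p : ℝ) =
      (n : ℝ) * ∏ p ∈ n.primeFactors, ((p - 1 : ℕ) : ℝ) := by
    simpa only [Nat.cast_mul, Nat.cast_prod] using congrArg (Nat.cast (R := ℝ)) h
  have hp : ∀ p ∈ n.primeFactors, (2 : ℝ) ≤ p ∧ ((p - 1 : ℕ) : ℝ) = (p : ℝ) - 1 := fun p hp =>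
    ⟨Nat.ofNat_le_cast.2 (Nat.prime_of_mem_primeFactors hp).two_le,
      by rw [Nat.cast_sub (Nat.prime_of_mem_primeFactors hp).one_le, Nat.cast_one]⟩
  have hne1 : ∀ p ∈ n.primeFactors, (p : ℝ) ≠ 0 := fun p hp' => by linarith [(hp p hp').1]
  have hne2 : ∀ p ∈ n.primeFactors, ((p - 1 : ℕ) : ℝ) ≠ 0 := fun p hp' => by
    rw [(hp p hp').2]
    linarith [(hp p hp').1]
  have h1 := congrArg Real.log hR
  rw [Real.log_mul (Nat.cast_ne_zero.2 hφ.ne') (prod_ne_zero_iff.2 hne1),
    Real.log_mul (Nat.cast_ne_zero.2 hn) (prod_ne_zero_iff.2 hne2), Real.log_prod hne1,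
    Real.log_prod hne2] at h1
  rw [show Real.log (n : ℝ) - Real.log n.totient =
    ∑ p ∈ n.primeFactors, (Real.log (p : ℝ) - Real.log ((p - 1 : ℕ) : ℝ)) by
      rw [sum_sub_distrib]; linarith]
  refine sum_le_sum fun p hp' => ?_
  obtain ⟨h2, e⟩ := hp p hp'
  rw [e, ← Real.log_div (by linarith) (by linarith)]
  refine (Real.log_le_sub_one_of_pos (div_pos (by linarith) (by linarith))).trans ?_
  rw [div_sub_one (by linarith), sub_sub_cancel, ← div_eq_mul_inv,
    div_le_div_iff₀ (by linarith) (by linarith)]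
  linarith

/-- The repeated part `n / ∏ p`. -/
theorem sum_repeated_eq (n : ℕ) :
    ∑ p ∈ n.primeFactors, Real.log ((p ^ (n.factorization p - 1) : ℕ) : ℝ) =
      Real.log n - ∑ p ∈ n.primeFactors, Real.log p := by
  have h : Real.log n = ∑ p ∈ n.primeFactors, (n.factorization p : ℝ) * Real.log p := by
    rw [Real.log_nat_eq_sum_factorization, Finsupp.sum, Nat.support_factorization]
  rw [h, ← sum_sub_distrib]
  refine sum_congr rfl fun p hp => ?_
  rw [Nat.cast_pow, Real.log_pow, Nat.cast_sub (OmegaPhi.one_le_factorization hp), Nat.cast_one]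
  ring

/-- **The logarithm of `φ n / λ n` from both sides.** -/
theorem log_totient_sub_log_carmichael {n N : ℕ} (hn : n ≠ 0) (hnN : n ≤ N) (y : ℕ) :
    (∑ p ∈ n.primeFactors, smallLog y p) - ∑ q ∈ primesUpTo y, Real.log q ≤
        Real.log n.totient - Real.log (ArithmeticFunction.carmichael n) ∧
    Real.log n.totient - Real.log (ArithmeticFunction.carmichael n) ≤
      Real.log 2 + (Real.log n - ∑ p ∈ n.primeFactors, Real.log p) +
        (∑ p ∈ n.primeFactors, smallLog y p) +
        (∑ d ∈ (Icc 1 y).filter (fun d => ¬ d.Prime), Λ d * hitCount n d) +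
        ∑ d ∈ Ioc y N, Λ d * (hitCount n d ^ 2 - hitCount n d) := by
  have : NeZero n := ⟨hn⟩
  obtain ⟨a, ha⟩ : ∃ a : ℕ → ℕ, a = phiPart n := ⟨_, rfl⟩
  obtain ⟨U, hU⟩ : ∃ U, U = n.primeFactors.lcm a := ⟨_, rfl⟩
  have hφ : 0 < n.totient := Nat.totient_pos.2 (Nat.pos_of_ne_zero hn)
  have hprod : n.totient = ∏ p ∈ n.primeFactors, a p := ha ▸ totient_eq_prod_phiPart hn
  have hapos : ∀ p ∈ n.primeFactors, 0 < a p := fun p hp => ha ▸ phiPart_pos hp
  have hUd : U ∣ n.totient := hU ▸ hprod ▸ Finset.lcm_dvd fun p hp => dvd_prod_of_mem a hp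
  have hU0 : 0 < U := Nat.pos_of_dvd_of_pos hUd hφ
  have hUN : U ≤ N := (Nat.le_of_dvd hφ hUd).trans ((Nat.totient_le n).trans hnN)
  have hc0 : 0 < ArithmeticFunction.carmichael n :=
    Nat.pos_of_dvd_of_pos (ArithmeticFunction.carmichael_dvd_totient n) hφ
  have hc1 : Real.log (ArithmeticFunction.carmichael n) ≤ Real.log U := Real.log_le_log
    (Nat.cast_pos.2 hc0) (Nat.cast_le.2 (Nat.le_of_dvd hU0 (hU ▸ ha ▸ carmichael_dvd_lcm hn)))
  have hc2 : Real.log U ≤ Real.log 2 + Real.log (ArithmeticFunction.carmichael n) := by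
    rw [← Real.log_mul two_ne_zero (Nat.cast_ne_zero.2 hc0.ne')]
    refine Real.log_le_log (Nat.cast_pos.2 hU0) ?_
    exact_mod_cast Nat.le_of_dvd (Nat.mul_pos two_pos hc0)
      (hU ▸ ha ▸ lcm_dvd_two_mul_carmichael hn)
  obtain ⟨M, hM⟩ : ∃ M : ℕ → ℝ,
      M = fun d => ((n.primeFactors.filter fun p => d ∣ a p).card : ℝ) := ⟨_, rfl⟩
  obtain ⟨e, he⟩ : ∃ e : ℕ → ℝ, e = fun d =>
      ((n.primeFactors.filter fun p => d ∣ p ^ (n.factorization p - 1)).card : ℝ) := ⟨_, rfl⟩
  obtain ⟨D, hD⟩ : ∃ D : ℕ → ℝ, D = fun d => Λ d * (M d - if d ∣ U then 1 else 0) := ⟨_, rfl⟩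
  have hdiff : Real.log n.totient - Real.log U = ∑ d ∈ Icc 1 N, D d := by
    rw [hprod, Nat.cast_prod, Real.log_prod fun p hp => Nat.cast_ne_zero.2 (hapos p hp).ne',
      log_eq_sum_vonMangoldt hU0 hUN,
      sum_congr rfl fun p hp => log_eq_sum_vonMangoldt (hapos p hp)
        ((Nat.le_of_dvd hφ (hprod ▸ dvd_prod_of_mem a hp)).trans ((Nat.totient_le n).trans hnN)),
      sum_comm, ← sum_sub_distrib, hD, hM]
    refine sum_congr rfl fun d _ => ?_
    rw [← sum_filter, sum_const, nsmul_eq_mul]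
    simp only
    by_cases hdU : d ∣ U
    · rw [if_pos hdU, if_pos hdU]
      ring
    · rw [if_neg hdU, if_neg hdU]
      ring
  have hM0 : ∀ d, 0 ≤ M d := fun d => by rw [hM]; exact Nat.cast_nonneg _
  have hM1 : ∀ d, IsPrimePow d → d ∣ U → 1 ≤ M d := fun d hd hdU => by
    obtain ⟨p, hp, hdp⟩ := exists_dvd_of_dvd_lcm hd (ha ▸ hU ▸ hdU)
    rw [hM]
    exact Nat.one_le_cast.2 (card_pos.2 ⟨p, mem_filter.2 ⟨hp, ha ▸ hdp⟩⟩)
  have hD0 : ∀ d, 0 ≤ D d := fun d => by
    rw [hD]
    by_cases hd : IsPrimePow d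
    · refine mul_nonneg ArithmeticFunction.vonMangoldt_nonneg ?_
      split_ifs with hdU
      · linarith [hM1 d hd hdU]
      · linarith [hM0 d]
    · simp [ArithmeticFunction.vonMangoldt_eq_zero_iff.2 hd]
  have hadd : ∑ p ∈ n.primeFactors, smallLog y p =
      ∑ q ∈ primesUpTo y, Real.log q * hitCount n q := by
    simp only [smallLog, sum_filter]
    rw [sum_comm]
    refine sum_congr rfl fun q _ => ?_
    rw [← sum_filter, sum_const, nsmul_eq_mul, hitCount, mul_comm]
  have hitle : ∀ d, hitCount n d ≤ M d := fun d => by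
    rw [hM, hitCount]
    refine Nat.cast_le.2 (card_le_card fun p hp => ?_)
    rw [mem_filter] at hp ⊢
    exact ⟨hp.1, ha ▸ hp.2.trans (dvd_mul_left _ _)⟩
  constructor
  · refine le_trans ?_ (show Real.log n.totient - Real.log U ≤ _ by linarith)
    rw [hdiff, hadd, ← sum_sub_distrib, ← sum_filter_add_sum_filter_not (primesUpTo y) (· ≤ N)]
    have hbig : ∑ q ∈ (primesUpTo y).filter (fun q => ¬ q ≤ N),
        (Real.log q * hitCount n q - Real.log q) ≤ 0 := by
      refine sum_nonpos fun q hq => ?_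
      rw [mem_filter, not_le] at hq
      have h0 : hitCount n q = 0 := by
        rw [hitCount, Nat.cast_eq_zero, card_eq_zero, filter_eq_empty_iff]
        intro p hp hd
        have h1 := (Nat.le_of_mem_primeFactors hp).trans hnN
        have h2 := (Nat.prime_of_mem_primeFactors hp).two_le
        have := Nat.le_of_dvd (by omega) hd
        omega
      rw [h0, mul_zero, zero_sub]
      linarith [Real.log_natCast_nonneg q]
    have hsmall : ∑ q ∈ (primesUpTo y).filter (· ≤ N),
        (Real.log q * hitCount n q - Real.log q) ≤ ∑ d ∈ Icc 1 N, D d := by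
      refine le_trans (sum_le_sum fun q hq => ?_) (sum_le_sum_of_subset_of_nonneg (fun q hq => ?_)
        fun d _ _ => hD0 d)
      · rw [mem_filter, mem_primesUpTo] at hq
        simp only [hD]
        rw [ArithmeticFunction.vonMangoldt_apply_prime hq.1.1, ← mul_sub_one]
        refine mul_le_mul_of_nonneg_left ?_ (Real.log_natCast_nonneg q)
        have := hitle q
        split_ifs <;> linarith
      · rw [mem_filter, mem_primesUpTo] at hq
        exact mem_Icc.2 ⟨hq.1.1.one_le, hq.2⟩
    linarith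
  · obtain ⟨h, hh⟩ : ∃ h : ℕ → ℝ, h = fun d => if d ≤ y then Λ d * hitCount n d
      else Λ d * (hitCount n d ^ 2 - hitCount n d) := ⟨_, rfl⟩
    have hsq : ∀ d, 0 ≤ hitCount n d ^ 2 - hitCount n d := fun d => by
      rw [hitCount, sub_nonneg]
      exact_mod_cast Nat.le_self_pow two_ne_zero _
    have hterm : ∀ d, D d ≤ Λ d * e d + h d := fun d => by
      have hΛ := ArithmeticFunction.vonMangoldt_nonneg (n := d)
      have hnn : 0 ≤ e d := by rw [he]; exact Nat.cast_nonneg _
      have hh0 : 0 ≤ h d := by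
        rw [hh]
        simp only
        split_ifs
        exacts [mul_nonneg hΛ (hitCount_nonneg n d), mul_nonneg hΛ (hsq d)]
      by_cases hd : IsPrimePow d
      swap
      · rw [hD]
        simp only [ArithmeticFunction.vonMangoldt_eq_zero_iff.2 hd, zero_mul, zero_add]
        exact hh0
      have hMle : M d ≤ e d + hitCount n d := by
        rw [hM, he, hitCount, ← Nat.cast_add]
        refine Nat.cast_le.2 ((card_le_card fun p hp => ?_).trans (card_union_le _ _))
        rw [mem_filter, ha, phiPart] at hp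
        rw [mem_union, mem_filter, mem_filter]
        have hpp := Nat.prime_of_mem_primeFactors hp.1
        have hcop : Nat.Coprime (p ^ (n.factorization p - 1)) (p - 1) :=
          Nat.Coprime.pow_left _ ((hpp.coprime_iff_not_dvd).2 fun hdv => by
            have := hpp.two_le
            have := Nat.le_of_dvd (by omega) hdv
            omega)
        rcases (hcop.isPrimePow_dvd_mul hd).1 hp.2 with h' | h'
        exacts [Or.inl ⟨hp.1, h'⟩, Or.inr ⟨hp.1, h'⟩]
      simp only [hD, hh]
      by_cases hdU : d ∣ U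
      · rw [if_pos hdU]
        split_ifs
        · rw [← mul_add]
          exact mul_le_mul_of_nonneg_left (by linarith) hΛ
        · rw [← mul_add]
          refine mul_le_mul_of_nonneg_left ?_ hΛ
          nlinarith [sq_nonneg (hitCount n d - 1)]
      · rw [if_neg hdU]
        have hM00 : M d = 0 := by
          rw [hM, Nat.cast_eq_zero, card_eq_zero, filter_eq_empty_iff]
          intro p hp hd'
          exact hdU (hd'.trans (hU ▸ Finset.dvd_lcm hp))
        rw [hM00, sub_zero, mul_zero]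
        simp only [hh] at hh0
        have := mul_nonneg hΛ hnn
        linarith
    have hsum := sum_le_sum (s := Icc 1 N) fun d _ => hterm d
    rw [sum_add_distrib, ← hdiff] at hsum
    have he' : ∑ d ∈ Icc 1 N, Λ d * e d ≤ Real.log n - ∑ p ∈ n.primeFactors, Real.log p := by
      rw [← sum_repeated_eq n]
      refine le_of_eq (Eq.symm ?_)
      rw [sum_congr rfl fun p hp => log_eq_sum_vonMangoldt (N := N)
        (pow_pos (Nat.prime_of_mem_primeFactors hp).pos _)
        ((Nat.le_of_dvd (Nat.pos_of_ne_zero hn) ((pow_dvd_pow p (Nat.sub_le _ 1)).trans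
          (Nat.ordProj_dvd n p))).trans hnN), sum_comm, he]
      refine sum_congr rfl fun d _ => ?_
      rw [← sum_filter, sum_const, nsmul_eq_mul, mul_comm]
    have hh' : ∑ d ∈ Icc 1 N, h d ≤ (∑ p ∈ n.primeFactors, smallLog y p) +
        (∑ d ∈ (Icc 1 y).filter (fun d => ¬ d.Prime), Λ d * hitCount n d) +
        ∑ d ∈ Ioc y N, Λ d * (hitCount n d ^ 2 - hitCount n d) := by
      rw [hh, sum_ite]
      refine add_le_add ?_ (le_of_eq ?_)
      · have hsub : (Icc 1 N).filter (· ≤ y) ⊆ Icc 1 y := fun d hd => by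
          rw [mem_filter, mem_Icc] at hd
          exact mem_Icc.2 ⟨hd.1.1, hd.2⟩
        refine (sum_le_sum_of_subset_of_nonneg hsub fun d _ _ =>
          mul_nonneg ArithmeticFunction.vonMangoldt_nonneg (hitCount_nonneg n d)).trans ?_
        rw [hadd, primesUpTo, ← sum_filter_add_sum_filter_not (Icc 1 y) Nat.Prime
          fun d => Λ d * hitCount n d]
        refine add_le_add (le_of_eq (sum_congr rfl fun q hq => ?_)) le_rfl
        rw [ArithmeticFunction.vonMangoldt_apply_prime (mem_filter.1 hq).2]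
      · refine sum_congr ?_ fun _ _ => rfl
        ext d
        simp only [mem_filter, mem_Icc, mem_Ioc, not_le]
        omega
    linarith

end FA.CarmichaelOrder

end
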